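import Mathlib

/-!
# S22 infrastructure: the abstract finiteness lemma

If a finitely generated `ℤ`-submodule `P` of the dual of a `ℂ`-vector space `V` separates the
points of `V` and is stable under precomposition with every element of a set `G` of endomorphisms,
then the `ℤ`-algebra generated by `G` is a finitely generated `ℤ`-module.
-/

set_option autoImplicit false

namespace Fermat.Agent.S22

variable {V : Type*} [AddCommGroup V] [Module ℂ V]

theorem comp_mem_of_mem_adjoin (G : Set (Module.End ℂ V)) (P : Submodule ℤ (Module.Dual ℂ V))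
    (hstab : ∀ T ∈ G, ∀ φ ∈ P, φ ∘ₗ T ∈ P) {t : Module.End ℂ V}
    (ht : t ∈ Algebra.adjoin ℤ G) : ∀ φ ∈ P, φ ∘ₗ t ∈ P := by
  induction ht using Algebra.adjoin_induction with
  | mem x hx => exact hstab x hx
  | algebraMap r =>
    intro φ hφ
    have : φ ∘ₗ (algebraMap ℤ (Module.End ℂ V) r) = r • φ := by
      ext v
      simp [Algebra.algebraMap_eq_smul_one]
    rw [this]
    exact P.smul_mem r hφ
  | add x y _ _ hx hy =>
    intro φ hφ
    have : φ ∘ₗ (x + y) = φ ∘ₗ x + φ ∘ₗ y := by
      ext v; simp
    rw [this]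
    exact P.add_mem (hx φ hφ) (hy φ hφ)
  | mul x y _ _ hx hy =>
    intro φ hφ
    have : φ ∘ₗ (x * y) = (φ ∘ₗ x) ∘ₗ y := by
      ext v; simp
    rw [this]
    exact hy _ (hx φ hφ)

theorem finite_adjoin_of_dual_lattice (G : Set (Module.End ℂ V))
    (P : Submodule ℤ (Module.Dual ℂ V)) (hfg : P.FG)
    (hsep : ∀ f : V, (∀ φ ∈ P, φ f = 0) → f = 0)
    (hstab : ∀ T ∈ G, ∀ φ ∈ P, φ ∘ₗ T ∈ P) :
    Module.Finite ℤ (Algebra.adjoin ℤ G) := by
  classical
  haveI : Module.Finite ℤ P := Module.Finite.iff_fg.mpr hfg
  -- the map `t ↦ (φ ↦ φ ∘ t)`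
  let Ψ : (Algebra.adjoin ℤ G) →ₗ[ℤ] (P →ₗ[ℤ] P) :=
    { toFun := fun t =>
        { toFun := fun φ => ⟨(φ : Module.Dual ℂ V) ∘ₗ (t : Module.End ℂ V),
            comp_mem_of_mem_adjoin G P hstab t.2 φ φ.2⟩
          map_add' := by
            intro φ ψ
            apply Subtype.ext
            ext v
            simp
          map_smul' := by
            intro r φ
            apply Subtype.ext
            ext v
            simp }
      map_add' := by
        intro s t
        ext φ v
        simp
      map_smul' := by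
        intro r t
        ext φ v
        simp }
  have hΨ : Function.Injective Ψ := by
    rw [injective_iff_map_eq_zero]
    intro t ht
    apply Subtype.ext
    ext v
    apply hsep
    intro φ hφ
    have := congrArg (fun L : P →ₗ[ℤ] P => ((L ⟨φ, hφ⟩ : P) : Module.Dual ℂ V) v) ht
    simpa [Ψ] using this
  -- `P →ₗ[ℤ] P` is a finitely generated `ℤ`-module
  haveI : IsNoetherian ℤ (P →ₗ[ℤ] P) := by
    obtain ⟨n, s, hs⟩ := Module.Finite.exists_fin (R := ℤ) (M := P)
    let ev : (P →ₗ[ℤ] P) →ₗ[ℤ] (Fin n → P) :=
      { toFun := fun L i => L (s i)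
        map_add' := by intro L L'; ext i; simp
        map_smul' := by intro r L; ext i; simp }
    have hev : Function.Injective ev := by
      intro L L' h
      apply LinearMap.ext_on_range hs
      intro i
      exact congrFun h i
    exact isNoetherian_of_injective ev hev
  exact Module.Finite.of_injective Ψ hΨ

end Fermat.Agent.S22
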