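import Fermat.Agent.S22.Period

/-!
# S22 infrastructure: Eichler integrals and Hecke operators

`E_{T_p f} = p^{w+1} • heckeT (-w) p (E_f)` and the same for `U_p`: by uniqueness of Eichler
integrals (`IsEichler.unique`) it suffices to show that the right hand side is holomorphic, zero at
`i∞` and has `D^{w+1} = T_p f`; the latter is Bol's identity (`bol`) for the upper triangular
matrices `heckeMatrix p j`, `heckeDiagMatrix p` of determinant `p`.
-/

set_option autoImplicit false

open UpperHalfPlane ModularForm Derivative CongruenceSubgroup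
open scoped MatrixGroups Manifold ModularForm

namespace Fermat.Agent.S22

noncomputable section

/-- The zero function is an Eichler integral of the zero function. -/
theorem IsEichler.zero_fun (w : ℕ) : IsEichler w (0 : ℍ → ℂ) (0 : ℍ → ℂ) := by
  refine ⟨?_, ?_, ?_⟩
  · exact mdifferentiable_const (c := (0 : ℂ))
  · have h := iterate_D_smul (w + 1) (0 : ℂ) (F := (0 : ℍ → ℂ))
      (mdifferentiable_const (c := (0 : ℂ)))
    simpa using h
  · exact Filter.zero_zeroAtFilter _

/-- Eichler integrals are compatible with finite sums. -/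
theorem IsEichler.sum {w : ℕ} {ι : Type*} (s : Finset ι) {g E : ι → ℍ → ℂ}
    (h : ∀ i ∈ s, IsEichler w (g i) (E i)) :
    IsEichler w (∑ i ∈ s, g i) (∑ i ∈ s, E i) := by
  classical
  induction s using Finset.induction_on with
  | empty => simpa using IsEichler.zero_fun w
  | insert a s ha ih =>
    rw [Finset.sum_insert ha, Finset.sum_insert ha]
    exact (h a (Finset.mem_insert_self a s)).add
      (ih fun i hi => h i (Finset.mem_insert_of_mem hi))

/-- Bol's identity and Eichler integrals: slashing by an upper triangular matrix of positive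
determinant. -/
theorem IsEichler.slash_upper {w : ℕ} {g E : ℍ → ℂ} (h : IsEichler w g E) {M : GL (Fin 2) ℝ}
    (hdet : 0 < M.val.det) (hM : M 1 0 = 0) :
    IsEichler w (g ∣[(w : ℤ) + 2] M) (((M.val.det : ℝ) : ℂ) ^ (w + 1) • (E ∣[-(w : ℤ)] M)) := by
  have hd : ((M.val.det : ℝ) : ℂ) ≠ 0 := Complex.ofReal_ne_zero.mpr hdet.ne'
  refine ⟨(h.mdiff.slash _ M).const_smul _, ?_, ?_⟩
  · rw [iterate_D_smul _ _ (h.mdiff.slash _ M), bol w h.mdiff hdet, h.deriv_eq, smul_smul,
      ← mul_pow, mul_inv_cancel₀ hd, one_pow, one_smul]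
  · exact Filter.ZeroAtFilter.smul _ (IsZeroAtImInfty.slash _ hM h.zero)

theorem heckeMatrix_one_zero {p : ℕ} (hp : p ≠ 0) (j : ℕ) : (heckeMatrix p j) 1 0 = 0 := by
  have h := val_heckeMatrix hp j
  have h2 := congrFun (congrFun h 1) 0
  simpa using h2

theorem heckeDiagMatrix_one_zero {p : ℕ} (hp : p ≠ 0) : (heckeDiagMatrix p) 1 0 = 0 := by
  have h := val_heckeDiagMatrix hp
  have h2 := congrFun (congrFun h 1) 0
  simpa using h2

theorem val_det_heckeMatrix {p : ℕ} (hp : p ≠ 0) (j : ℕ) :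
    (heckeMatrix p j).val.det = (p : ℝ) := by
  rw [val_heckeMatrix hp, Matrix.det_fin_two_of]
  ring

theorem val_det_heckeDiagMatrix {p : ℕ} (hp : p ≠ 0) :
    (heckeDiagMatrix p).val.det = (p : ℝ) := by
  rw [val_heckeDiagMatrix hp, Matrix.det_fin_two_of]
  ring

theorem IsEichler.slash_heckeMatrix {w : ℕ} {g E : ℍ → ℂ} (h : IsEichler w g E) {p : ℕ}
    (hp : p ≠ 0) (j : ℕ) :
    IsEichler w (g ∣[(w : ℤ) + 2] heckeMatrix p j)
      ((p : ℂ) ^ (w + 1) • (E ∣[-(w : ℤ)] heckeMatrix p j)) := by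
  have hpos : 0 < (heckeMatrix p j).val.det := by
    rw [val_det_heckeMatrix hp]; exact_mod_cast Nat.pos_of_ne_zero hp
  have := h.slash_upper hpos (heckeMatrix_one_zero hp j)
  rwa [val_det_heckeMatrix hp, Complex.ofReal_natCast] at this

theorem IsEichler.slash_heckeDiagMatrix {w : ℕ} {g E : ℍ → ℂ} (h : IsEichler w g E) {p : ℕ}
    (hp : p ≠ 0) :
    IsEichler w (g ∣[(w : ℤ) + 2] heckeDiagMatrix p)
      ((p : ℂ) ^ (w + 1) • (E ∣[-(w : ℤ)] heckeDiagMatrix p)) := by
  have hpos : 0 < (heckeDiagMatrix p).val.det := by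
    rw [val_det_heckeDiagMatrix hp]; exact_mod_cast Nat.pos_of_ne_zero hp
  have := h.slash_upper hpos (heckeDiagMatrix_one_zero hp)
  rwa [val_det_heckeDiagMatrix hp, Complex.ofReal_natCast] at this

/-- `p^{w+1} • U_p E` (weight `-w`) is an Eichler integral of `U_p g` (weight `w + 2`). -/
theorem IsEichler.heckeU {w : ℕ} {g E : ℍ → ℂ} (h : IsEichler w g E) {p : ℕ} (hp : p ≠ 0) :
    IsEichler w (ModularForm.heckeU ((w : ℤ) + 2) p g)
      ((p : ℂ) ^ (w + 1) • ModularForm.heckeU (-(w : ℤ)) p E) := by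
  rw [heckeU_def, heckeU_def, Finset.smul_sum]
  exact IsEichler.sum _ fun j _ => h.slash_heckeMatrix hp j

/-- `p^{w+1} • T_p E` (weight `-w`) is an Eichler integral of `T_p g` (weight `w + 2`). -/
theorem IsEichler.heckeT {w : ℕ} {g E : ℍ → ℂ} (h : IsEichler w g E) {p : ℕ} (hp : p ≠ 0) :
    IsEichler w (ModularForm.heckeT ((w : ℤ) + 2) p g)
      ((p : ℂ) ^ (w + 1) • ModularForm.heckeT (-(w : ℤ)) p E) := by
  rw [heckeT_eq_heckeU_add, heckeT_eq_heckeU_add, smul_add]
  exact (h.heckeU hp).add (h.slash_heckeDiagMatrix hp)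

variable (N : ℕ) [NeZero N] (w : ℕ)

theorem eichler_heckeT {p : ℕ} (hp : p.Prime) (hpN : ¬ p ∣ N)
    (f : CuspForm (Gamma0 N) ((w : ℤ) + 2)) :
    eichler N w (CuspForm.heckeTLin ((w : ℤ) + 2) hp hpN f)
      = (p : ℂ) ^ (w + 1) • ModularForm.heckeT (-(w : ℤ)) p (eichler N w f) := by
  refine IsEichler.unique (eichler_spec N w _) ?_
  rw [CuspForm.coe_heckeTLin_apply]
  exact (eichler_spec N w f).heckeT hp.ne_zero

theorem eichler_heckeU {p : ℕ} (hpN : p ∣ N)
    (f : CuspForm (Gamma0 N) ((w : ℤ) + 2)) :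
    eichler N w (CuspForm.heckeULin ((w : ℤ) + 2) hpN f)
      = (p : ℂ) ^ (w + 1) • ModularForm.heckeU (-(w : ℤ)) p (eichler N w f) := by
  have hp0 : p ≠ 0 := by
    rintro rfl
    exact NeZero.ne N (Nat.eq_zero_of_zero_dvd hpN)
  refine IsEichler.unique (eichler_spec N w _) ?_
  rw [CuspForm.coe_heckeULin_apply]
  exact (eichler_spec N w f).heckeU hp0

end

end Fermat.Agent.S22
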