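import Fermat.Agent.S22.Period
import Fermat.Agent.S22.HeckeEichler
import Fermat.Prelude.Sol.S_ModularForm_heckeT_slash_eq_self_of_mem_Gamma0

/-!
# S22 infrastructure: Hecke operators and the period lattice

Using `E_{T_p f} = p^{w+1} • heckeT (-w) p (E_f)` (`HeckeEichler.lean`) and the prelude lemmas
`heckeRep_mul` / `heckeMatrix_mul_of_dvd`, the period vector of `T_p f` at `γ` is an integer
combination of the period vectors of `f` at suitable `γ' ∈ Γ₀(N)`.
-/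

set_option autoImplicit false

open UpperHalfPlane ModularForm Derivative CongruenceSubgroup
open scoped MatrixGroups Manifold ModularForm
open P2MW.S_ModularForm_heckeT_slash_eq_self_of_mem_Gamma0.ModularForm.HeckeSlashInvariance

namespace Fermat.Agent.S22

noncomputable section

variable (N : ℕ) [NeZero N] (w : ℕ)

theorem polyEval_sum {ι : Type*} (s : Finset ι) (c : ι → Fin (w + 1) → ℂ) (z : ℂ) :
    polyEval (∑ x ∈ s, c x) z = ∑ x ∈ s, polyEval (c x) z := by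
  classical
  induction s using Finset.induction_on with
  | empty => simp [polyEval_zero]
  | insert i t hi ih => rw [Finset.sum_insert hi, Finset.sum_insert hi, polyEval_add, ih]

theorem sub_slash' (k : ℤ) (g : GL (Fin 2) ℝ) (F G : ℍ → ℂ) :
    (F - G) ∣[k] g = F ∣[k] g - G ∣[k] g := by
  rw [sub_eq_add_neg, SlashAction.add_slash, SlashAction.neg_slash, ← sub_eq_add_neg]

/-- The general mechanism: period vectors of a "Hecke translate". -/
theorem periodVec_of_hecke_sum {ι : Type*} [Fintype ι] (α : ι → GL (Fin 2) ℝ) (a b d : ι → ℤ)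
    (P : ℂ)
    (hα : ∀ (x : ι) (c : Fin (w + 1) → ℂ) (z : ℍ),
      P * ((fun z : ℍ => polyEval c z) ∣[-(w : ℤ)] α x) z
        = polyEval (actVec w (a x) (b x) 0 (d x) c) z)
    (σ : Equiv.Perm ι) (γ : Gamma0 N) (γ' : ι → Gamma0 N)
    (hγ' : ∀ x, α x * Matrix.SpecialLinearGroup.mapGL ℝ (γ : SL(2, ℤ))
      = Matrix.SpecialLinearGroup.mapGL ℝ ((γ' x : Gamma0 N) : SL(2, ℤ)) * α (σ x))
    (f f' : CuspForm (Gamma0 N) ((w : ℤ) + 2))
    (hE : eichler N w f' = P • ∑ x, eichler N w f ∣[-(w : ℤ)] α x) :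
    periodVec N w f' γ
      = ∑ x, actVec w (a (σ x)) (b (σ x)) 0 (d (σ x)) (periodVec N w f (γ' x)) := by
  refine periodVec_eq_of N w _ _ _ fun z => ?_
  set E := eichler N w f with hEdef
  -- rewrite the slash by `γ`
  have h1 : ∀ x, (E ∣[-(w : ℤ)] α x) ∣[-(w : ℤ)] (γ : SL(2, ℤ))
      = (E ∣[-(w : ℤ)] ((γ' x : Gamma0 N) : SL(2, ℤ))) ∣[-(w : ℤ)] α (σ x) := by
    intro x
    have hx : α x * ((γ : SL(2, ℤ)) : GL (Fin 2) ℝ)
        = (((γ' x : Gamma0 N) : SL(2, ℤ)) : GL (Fin 2) ℝ) * α (σ x) := hγ' x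
    rw [ModularForm.SL_slash, ModularForm.SL_slash, ← SlashAction.slash_mul, hx,
      SlashAction.slash_mul]
  have h2 : ∑ x, E ∣[-(w : ℤ)] α x = ∑ x, E ∣[-(w : ℤ)] α (σ x) :=
    (Equiv.sum_comp σ (fun x => E ∣[-(w : ℤ)] α x)).symm
  have h3 : ∀ x, (E ∣[-(w : ℤ)] ((γ' x : Gamma0 N) : SL(2, ℤ))) ∣[-(w : ℤ)] α (σ x)
        - E ∣[-(w : ℤ)] α (σ x)
      = (fun z : ℍ => polyEval (periodVec N w f (γ' x)) z) ∣[-(w : ℤ)] α (σ x) := by
    intro x
    have : (fun z : ℍ => polyEval (periodVec N w f (γ' x)) z)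
        = E ∣[-(w : ℤ)] ((γ' x : Gamma0 N) : SL(2, ℤ)) - E := by
      funext z
      rw [Pi.sub_apply, periodVec_spec]
    rw [this, sub_slash']
  have h4 : (eichler N w f' ∣[-(w : ℤ)] (γ : SL(2, ℤ))) - eichler N w f'
      = P • ∑ x, (fun z : ℍ => polyEval (periodVec N w f (γ' x)) z) ∣[-(w : ℤ)] α (σ x) := by
    rw [hE, ModularForm.SL_smul_slash, ← smul_sub]
    congr 1
    rw [ModularForm.SL_slash, SlashAction.sum_slash]
    conv_lhs => rw [h2]
    rw [← Finset.sum_sub_distrib]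
    refine Finset.sum_congr rfl fun x _ => ?_
    rw [← h3 x, ← h1 x, ModularForm.SL_slash]
  have h5 := congrFun h4 z
  rw [Pi.sub_apply] at h5
  rw [h5, polyEval_sum]
  simp only [Pi.smul_apply, Finset.sum_apply, smul_eq_mul, Finset.mul_sum]
  exact Finset.sum_congr rfl fun x _ => hα (σ x) _ z

/-- From a formula for period vectors to membership in the period lattice. -/
theorem comp_mem_periodLattice_of_periodVec {ι : Type*} [Fintype ι] (a b d : ι → ℤ)
    (γ : Gamma0 N) (γ' : ι → Gamma0 N) (i : Fin (w + 1))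
    (T : Module.End ℂ (CuspForm (Gamma0 N) ((w : ℤ) + 2)))
    (h : ∀ f, periodVec N w (T f) γ
      = ∑ x, actVec w (a x) (b x) 0 (d x) (periodVec N w f (γ' x))) :
    periodLin N w γ i ∘ₗ T ∈ periodLattice N w := by
  have key : periodLin N w γ i ∘ₗ T
      = ∑ x, ∑ j, (actMat w (a x) (b x) 0 (d x) i j) • periodLin N w (γ' x) j := by
    ext f
    simp only [LinearMap.comp_apply, periodLin_apply, h f, Finset.sum_apply, actVec,
      LinearMap.sum_apply, LinearMap.smul_apply, zsmul_eq_mul]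
  rw [key]
  refine Submodule.sum_mem _ fun x _ => Submodule.sum_mem _ fun j _ => ?_
  exact Submodule.smul_mem _ _ (periodLin_mem_periodLattice N w (γ' x) j)

/-- `p^{w+1}` times the weight `-w` slash of a polynomial by `heckeMatrix p j`. -/
theorem polyEval_slash_heckeMatrix {p : ℕ} (hp : p ≠ 0) (j : ℕ) (c : Fin (w + 1) → ℂ) (z : ℍ) :
    (p : ℂ) ^ (w + 1) * ((fun z : ℍ => polyEval c z) ∣[-(w : ℤ)] ModularForm.heckeMatrix p j) z
      = polyEval (actVec w 1 j 0 p c) z := by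
  have hp' : (p : ℂ) ≠ 0 := by exact_mod_cast hp
  rw [ModularForm.slash_heckeMatrix_apply _ hp, ModularForm.coe_heckeMatrix_smul hp,
    polyEval_actVec, polyEval, Finset.mul_sum, Finset.mul_sum]
  refine Finset.sum_congr rfl fun i _ => ?_
  have hi : (i : ℕ) ≤ w := Nat.lt_succ_iff.mp i.2
  have hpow : (p : ℂ) ^ (w + 1) = (p : ℂ) * ((p : ℂ) ^ (i : ℕ) * (p : ℂ) ^ (w - (i : ℕ))) := by
    rw [← pow_add, Nat.add_sub_cancel' hi, pow_succ']
  rw [hpow, div_pow]
  push_cast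
  field_simp
  ring

/-- `p^{w+1}` times the weight `-w` slash of a polynomial by `heckeDiagMatrix p`. -/
theorem polyEval_slash_heckeDiagMatrix {p : ℕ} (hp : p ≠ 0) (c : Fin (w + 1) → ℂ) (z : ℍ) :
    (p : ℂ) ^ (w + 1) * ((fun z : ℍ => polyEval c z) ∣[-(w : ℤ)] ModularForm.heckeDiagMatrix p) z
      = polyEval (actVec w p 0 0 1 c) z := by
  have hp' : (p : ℂ) ≠ 0 := by exact_mod_cast hp
  rw [ModularForm.slash_heckeDiagMatrix_apply _ hp, ModularForm.coe_heckeDiagMatrix_smul hp,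
    polyEval_actVec, ← mul_assoc]
  have hpow : (p : ℂ) ^ (w + 1) * (p : ℂ) ^ (-(w : ℤ) - 1) = 1 := by
    rw [← zpow_natCast, ← zpow_add₀ hp']
    have : ((w + 1 : ℕ) : ℤ) + (-(w : ℤ) - 1) = 0 := by push_cast; ring
    rw [this, zpow_zero]
  rw [hpow, one_mul, polyEval]
  refine Finset.sum_congr rfl fun i _ => ?_
  push_cast
  simp

/-! ### The operator `U_p` -/

section U

variable {p : ℕ} (hpN : p ∣ N)

include hpN in
theorem ne_zero_of_dvd_level : p ≠ 0 := by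
  rintro rfl
  exact NeZero.ne N (Nat.eq_zero_of_zero_dvd hpN)

theorem periodVec_heckeU_exists (γ : Gamma0 N) :
    ∃ (ι : Type) (_ : Fintype ι) (a b d : ι → ℤ) (γ' : ι → Gamma0 N),
      ∀ f : CuspForm (Gamma0 N) ((w : ℤ) + 2),
        periodVec N w (CuspForm.heckeULin ((w : ℤ) + 2) hpN f) γ
          = ∑ x, actVec w (a x) (b x) 0 (d x) (periodVec N w f (γ' x)) := by
  have hp : p ≠ 0 := ne_zero_of_dvd_level N hpN
  haveI : NeZero p := ⟨hp⟩
  have hcN : (N : ℤ) ∣ (γ : SL(2, ℤ)) 1 0 :=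
    (ZMod.intCast_zmod_eq_zero_iff_dvd _ _).mp (CongruenceSubgroup.Gamma0_mem.mp γ.2)
  have hc : (p : ℤ) ∣ (γ : SL(2, ℤ)) 1 0 := (Int.natCast_dvd_natCast.mpr hpN).trans hcN
  have hc0 : (((γ : SL(2, ℤ)) 1 0 : ℤ) : ZMod p) = 0 :=
    (ZMod.intCast_zmod_eq_zero_iff_dvd _ _).mpr hc
  have hex : ∀ x : ZMod p, ∃ g' : Gamma0 N,
      ModularForm.heckeMatrix p x.val * Matrix.SpecialLinearGroup.mapGL ℝ (γ : SL(2, ℤ))
        = Matrix.SpecialLinearGroup.mapGL ℝ ((g' : Gamma0 N) : SL(2, ℤ))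
          * ModularForm.heckeMatrix p ((affinePerm (γ : SL(2, ℤ)) hc0) x).val := by
    intro x
    obtain ⟨g', hg', hmul⟩ := heckeMatrix_mul_of_dvd (γ : SL(2, ℤ)) hc x
    refine ⟨⟨g', ?_⟩, hmul⟩
    rw [CongruenceSubgroup.Gamma0_mem, hg']
    push_cast
    rw [CongruenceSubgroup.Gamma0_mem.mp γ.2, mul_zero]
  choose γ' hγ' using hex
  set σ := affinePerm (γ : SL(2, ℤ)) hc0 with hσ
  refine ⟨ZMod p, inferInstance, fun x => 1, fun x => ((σ x).val : ℤ), fun x => (p : ℤ), γ',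
    fun f => ?_⟩
  have := periodVec_of_hecke_sum N w (fun x : ZMod p => ModularForm.heckeMatrix p x.val)
    (fun _ => 1) (fun x => (x.val : ℤ)) (fun _ => (p : ℤ)) ((p : ℂ) ^ (w + 1))
    (fun x c z => by
      have := polyEval_slash_heckeMatrix w hp x.val c z
      simpa using this)
    σ γ γ' hγ' f (CuspForm.heckeULin ((w : ℤ) + 2) hpN f)
    (by rw [eichler_heckeU, heckeU_eq_sum_zmod])
  exact this

theorem periodLin_comp_heckeU_mem (γ : Gamma0 N) (i : Fin (w + 1)) :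
    periodLin N w γ i ∘ₗ CuspForm.heckeULin ((w : ℤ) + 2) hpN ∈ periodLattice N w := by
  obtain ⟨ι, _, a, b, d, γ', h⟩ := periodVec_heckeU_exists N w hpN γ
  exact comp_mem_periodLattice_of_periodVec N w a b d γ γ' i _ h

end U

/-! ### The operator `T_p` -/

section T

variable {p : ℕ} (hp : p.Prime) (hpN : ¬ p ∣ N)

/-- The integer data of the coset representatives `heckeRep p x`. -/
def repA (p : ℕ) (x : OnePoint (ZMod p)) : ℤ := x.elim (p : ℤ) (fun _ => 1)

def repB (p : ℕ) (x : OnePoint (ZMod p)) : ℤ := x.elim 0 (fun j => (j.val : ℤ))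

def repD (p : ℕ) (x : OnePoint (ZMod p)) : ℤ := x.elim 1 (fun _ => (p : ℤ))

theorem polyEval_slash_heckeRep {p : ℕ} (hp : p ≠ 0) (x : OnePoint (ZMod p))
    (c : Fin (w + 1) → ℂ) (z : ℍ) :
    (p : ℂ) ^ (w + 1) * ((fun z : ℍ => polyEval c z) ∣[-(w : ℤ)] heckeRep p x) z
      = polyEval (actVec w (repA p x) (repB p x) 0 (repD p x) c) z := by
  induction x using OnePoint.rec with
  | infty => exact polyEval_slash_heckeDiagMatrix w hp c z
  | coe j =>
    have := polyEval_slash_heckeMatrix w hp j.val c z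
    simpa [repA, repB, repD] using this

theorem periodVec_heckeT_exists (γ : Gamma0 N) :
    ∃ (ι : Type) (_ : Fintype ι) (a b d : ι → ℤ) (γ' : ι → Gamma0 N),
      ∀ f : CuspForm (Gamma0 N) ((w : ℤ) + 2),
        periodVec N w (CuspForm.heckeTLin ((w : ℤ) + 2) hp hpN f) γ
          = ∑ x, actVec w (a x) (b x) 0 (d x) (periodVec N w f (γ' x)) := by
  haveI : Fact p.Prime := ⟨hp⟩
  haveI : NeZero p := ⟨hp.ne_zero⟩
  have hcN : (N : ℤ) ∣ (γ : SL(2, ℤ)) 1 0 :=
    (ZMod.intCast_zmod_eq_zero_iff_dvd _ _).mp (CongruenceSubgroup.Gamma0_mem.mp γ.2)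
  have hex : ∀ x : OnePoint (ZMod p), ∃ g' : Gamma0 N,
      heckeRep p x * Matrix.SpecialLinearGroup.mapGL ℝ (γ : SL(2, ℤ))
        = Matrix.SpecialLinearGroup.mapGL ℝ ((g' : Gamma0 N) : SL(2, ℤ))
          * heckeRep p (redMatrix p (γ : SL(2, ℤ)) • x) := by
    intro x
    obtain ⟨g', hg', hmul⟩ := heckeRep_mul hpN (γ : SL(2, ℤ)) hcN x
    exact ⟨⟨g', CongruenceSubgroup.Gamma0_mem.mpr
      ((ZMod.intCast_zmod_eq_zero_iff_dvd _ _).mpr hg')⟩, hmul⟩
  choose γ' hγ' using hex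
  set σ : Equiv.Perm (OnePoint (ZMod p)) := MulAction.toPerm (redMatrix p (γ : SL(2, ℤ))) with hσ
  refine ⟨OnePoint (ZMod p), inferInstance, fun x => repA p (σ x), fun x => repB p (σ x),
    fun x => repD p (σ x), γ', fun f => ?_⟩
  exact periodVec_of_hecke_sum N w (heckeRep p) (repA p) (repB p) (repD p) ((p : ℂ) ^ (w + 1))
    (fun x c z => polyEval_slash_heckeRep w hp.ne_zero x c z)
    σ γ γ' hγ' f (CuspForm.heckeTLin ((w : ℤ) + 2) hp hpN f)
    (by rw [eichler_heckeT, heckeT_eq_sum_onePoint])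

theorem periodLin_comp_heckeT_mem (γ : Gamma0 N) (i : Fin (w + 1)) :
    periodLin N w γ i ∘ₗ CuspForm.heckeTLin ((w : ℤ) + 2) hp hpN ∈ periodLattice N w := by
  obtain ⟨ι, _, a, b, d, γ', h⟩ := periodVec_heckeT_exists N w hp hpN γ
  exact comp_mem_periodLattice_of_periodVec N w a b d γ γ' i _ h

end T

/-- Stability of the period lattice under the Hecke generators. -/
theorem periodLattice_stable (S : Set ℕ) :
    ∀ T ∈ CuspForm.heckeGenerators N ((w : ℤ) + 2) S, ∀ φ ∈ periodLattice N w,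
      φ ∘ₗ T ∈ periodLattice N w := by
  intro T hT φ hφ
  have key : ∀ (γ : Gamma0 N) (i : Fin (w + 1)), periodLin N w γ i ∘ₗ T ∈ periodLattice N w := by
    intro γ i
    rcases hT with ⟨ℓ, hℓ, hℓN, -, rfl⟩ | ⟨q, hqN, -, -, rfl⟩
    · exact periodLin_comp_heckeT_mem N w hℓ hℓN γ i
    · exact periodLin_comp_heckeU_mem N w hqN γ i
  refine Submodule.span_induction (p := fun φ _ => φ ∘ₗ T ∈ periodLattice N w) ?_ ?_ ?_ ?_ hφ
  · rintro _ ⟨⟨γ, i⟩, rfl⟩
    exact key γ i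
  · simp
  · intro x y _ _ hx hy
    have : (x + y) ∘ₗ T = x ∘ₗ T + y ∘ₗ T := by ext v; simp
    rw [this]
    exact (periodLattice N w).add_mem hx hy
  · intro r x _ hx
    have : (r • x) ∘ₗ T = r • (x ∘ₗ T) := by ext v; simp
    rw [this]
    exact (periodLattice N w).smul_mem r hx

end

end Fermat.Agent.S22
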