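import Fermat.Agent.S22.Period
import Fermat.Prelude.Thm_ModularForm_sturm_bound_Gamma0

/-!
# S22 infrastructure: second half of the injectivity of the period map

If the Eichler integral `E_f` is invariant of weight `-w` under `Γ₀(N)` and bounded at all cusps,
then it is a modular form of weight `-w ≤ 0` with vanishing constant term, hence `0` by the prelude
Sturm bound, hence `f = D^{w+1} E_f = 0`.
-/

set_option autoImplicit false

open UpperHalfPlane ModularForm Derivative CongruenceSubgroup
open scoped MatrixGroups Manifold ModularForm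

namespace Fermat.Agent.S22

noncomputable section

variable (N : ℕ) [NeZero N] (w : ℕ)

theorem iterate_D_zero (n : ℕ) : D^[n] (0 : ℍ → ℂ) = 0 := by
  induction n with
  | zero => rfl
  | succ n ih =>
    rw [Function.iterate_succ_apply', ih]
    exact normalizedDerivOfComplex_const 0

theorem eq_zero_of_invariant_of_bounded (f : CuspForm (Gamma0 N) ((w : ℤ) + 2))
    (hinv : ∀ γ : SL(2, ℤ), γ ∈ Gamma0 N →
      eichler N w f ∣[-(w : ℤ)] γ = eichler N w f)
    (hbdd : ∀ δ : SL(2, ℤ), IsBoundedAtImInfty (eichler N w f ∣[-(w : ℤ)] δ)) : f = 0 := by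
  have hE := eichler_spec N w f
  -- package `E` as a modular form of weight `-w`
  let F : ModularForm (Gamma0 N) (-(w : ℤ)) :=
    { toFun := eichler N w f
      slash_action_eq' := by
        rintro γ ⟨γ₀, hγ₀, rfl⟩
        exact hinv γ₀ hγ₀
      holo' := hE.mdiff
      bdd_at_cusps' := by
        intro c hc
        have hc' : IsCusp c 𝒮ℒ :=
          (Subgroup.IsArithmetic.isCusp_iff_isCusp_SL2Z (Gamma0 N : Subgroup (GL (Fin 2) ℝ))).mp hc
        rw [OnePoint.isBoundedAt_iff_forall_SL2Z hc']
        intro δ _
        exact hbdd δ }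
  have hF : F = 0 := by
    refine ModularForm.sturm_bound_Gamma0 N F fun n hn => ?_
    have h0 : ((-(w : ℤ)) * ((Gamma0 N).index : ℤ)).toNat = 0 := by
      apply Int.toNat_of_nonpos
      exact mul_nonpos_of_nonpos_of_nonneg (by omega) (by positivity)
    rw [h0] at hn
    obtain rfl : n = 0 := by omega
    have h1 := one_mem_strictPeriods_Gamma0 N
    rw [qExpansion_coeff_zero one_pos
      (ModularFormClass.analyticAt_cuspFunction_zero F one_pos h1)
      (SlashInvariantFormClass.periodic_comp_ofComplex F h1)]
    exact IsZeroAtImInfty.valueAtInfty_eq_zero (f := eichler N w f) hE.zero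
  have hE0 : eichler N w f = 0 := by
    have h1 : (⇑F : ℍ → ℂ) = eichler N w f := rfl
    rw [← h1, hF]
    rfl
  have hf : (⇑f : ℍ → ℂ) = 0 := by
    rw [← hE.deriv_eq, hE0, iterate_D_zero]
  exact DFunLike.coe_injective (by simpa using hf)

end

end Fermat.Agent.S22
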