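import Fermat.Agent.S22.Period
import Fermat.Agent.S22.InjectSturm
import Fermat.Prelude.Thm_ModularForm_sturm_bound_Gamma0
import Fermat.Prelude.Thm_Subgroup_IsArithmetic_exists_nat_mem_strictPeriods_conj

/-!
# S22 infrastructure: injectivity of the period map  (OWNER: helper6)

If all period vectors of `f` vanish, then `E_f` is invariant of weight `-w` under `Γ₀(N)`,
holomorphic, bounded at all cusps and zero at `i∞`; hence a modular form of weight `-w ≤ 0` with
vanishing constant term, hence `0` by the prelude Sturm bound; hence `f = D^{w+1} E_f = 0`.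

Boundedness at the cusp `δ • ∞` (`δ ∈ SL₂(ℤ)`): `g := f ∣[w+2] δ` is holomorphic, `M`-periodic and
zero at `i∞`; let `E_g` be its `M`-periodic Eichler integral (`exists_isEichler`). By Bol,
`D^{w+1}(E_f ∣[-w] δ - E_g) = 0`, so `E_f ∣[-w] δ = E_g + polynomial`; both `E_f ∣[-w] δ`
(invariance under `δ⁻¹ Γ₀(N) δ ∋ T^M`) and `E_g` are `M`-periodic, so the polynomial is constant.
-/

set_option autoImplicit false

open UpperHalfPlane ModularForm Derivative CongruenceSubgroup
open scoped MatrixGroups Manifold ModularForm Pointwise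

namespace Fermat.Agent.S22

noncomputable section

/-- `polyEval` of the zero vector. -/
theorem polyEval_zero_vec (w : ℕ) (z : ℂ) : polyEval (0 : Fin (w + 1) → ℂ) z = 0 := by
  simp [polyEval]

/-- Abstract boundedness statement: a holomorphic function `F` on `ℍ` which is periodic and whose
`(w+1)`-st `D`-derivative is a periodic function vanishing at `i∞` is bounded at `i∞`. -/
theorem isBoundedAtImInfty_of_iterate_D (w : ℕ) {F g : ℍ → ℂ} {h : ℝ} (hh : 0 < h)
    (hF : MDiff F) (hFper : Function.Periodic (F ∘ ofComplex) h)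
    (hFg : D^[w + 1] F = g)
    (hgper : Function.Periodic (g ∘ ofComplex) h) (hgzero : IsZeroAtImInfty g) :
    IsBoundedAtImInfty F := by
  have hg : MDiff g := hFg ▸ mdiff_iterate_D (w + 1) hF
  obtain ⟨E, hE, hEper⟩ := exists_isEichler w hh hg hgper hgzero
  have hP : MDiff (F - E) := hF.sub hE.mdiff
  have hDP : D^[w + 1] (F - E) = 0 := by
    rw [iterate_D_sub (w + 1) hF hE.mdiff, hFg, hE.deriv_eq, sub_self]
  obtain ⟨c, hc⟩ := exists_polyEval_of_iterate_D_eq_zero w hP hDP
  -- periodicity of the polynomial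
  have hper : ∀ z : ℍ, polyEval c ((z : ℂ) + h) = polyEval c z := by
    intro z
    have hz' : 0 < ((z : ℂ) + h).im := by simpa using z.im_pos
    have h1 : ((ofComplex ((z : ℂ) + h) : ℍ) : ℂ) = (z : ℂ) + h := by
      rw [ofComplex_apply_of_im_pos hz']
    have h2 := hc (ofComplex ((z : ℂ) + h))
    rw [h1] at h2
    rw [← h2, ← hc z]
    have hF1 := hFper (z : ℂ)
    have hE1 := hEper (z : ℂ)
    simp only [Function.comp_apply, ofComplex_apply] at hF1 hE1
    simp only [Pi.sub_apply, hF1, hE1]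
  have hconst := polyEval_const_of_periodic hh hper
  have hFE : F = E + fun _ => c 0 := by
    funext z
    have := hc z
    rw [hconst z, Pi.sub_apply] at this
    simp only [Pi.add_apply]
    rw [← this]
    ring
  rw [hFE]
  exact hE.zero.isBoundedAtImInfty.add (Filter.const_boundedAtFilter _ _)

variable (N : ℕ) [NeZero N] (w : ℕ)

/-- If all period vectors vanish, the Eichler integral is invariant of weight `-w`. -/
theorem eichler_slash_eq_of_periodVec_eq_zero (f : CuspForm (Gamma0 N) ((w : ℤ) + 2))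
    (h : ∀ γ : Gamma0 N, periodVec N w f γ = 0) (γ : SL(2, ℤ)) (hγ : γ ∈ Gamma0 N) :
    eichler N w f ∣[-(w : ℤ)] γ = eichler N w f := by
  funext z
  have h1 := periodVec_spec N w f ⟨γ, hγ⟩ z
  rw [h ⟨γ, hγ⟩, polyEval_zero_vec] at h1
  exact sub_eq_zero.mp h1

/-- The Eichler integral as a slash invariant form, when all period vectors vanish. -/
def eichlerSIF (f : CuspForm (Gamma0 N) ((w : ℤ) + 2))
    (h : ∀ γ : Gamma0 N, periodVec N w f γ = 0) :
    SlashInvariantForm (Gamma0 N : Subgroup (GL (Fin 2) ℝ)) (-(w : ℤ)) where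
  toFun := eichler N w f
  slash_action_eq' := by
    intro γ hγ
    obtain ⟨γ', hγ', rfl⟩ := Subgroup.mem_map.mp hγ
    exact eichler_slash_eq_of_periodVec_eq_zero N w f h γ' hγ'

theorem eichler_slash_isBoundedAtImInfty (f : CuspForm (Gamma0 N) ((w : ℤ) + 2))
    (h : ∀ γ : Gamma0 N, periodVec N w f γ = 0) (δ : SL(2, ℤ)) :
    IsBoundedAtImInfty (eichler N w f ∣[-(w : ℤ)] δ) := by
  obtain ⟨M, hMpos, hM⟩ :=
    Subgroup.IsArithmetic.exists_nat_mem_strictPeriods_conj (Gamma0 N : Subgroup (GL (Fin 2) ℝ))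
  have hMδ : (M : ℝ) ∈ (ConjAct.toConjAct (Matrix.SpecialLinearGroup.mapGL ℝ δ)⁻¹ •
      (Gamma0 N : Subgroup (GL (Fin 2) ℝ))).strictPeriods := by
    have := hM δ⁻¹
    rwa [map_inv] at this
  have hE := eichler_spec N w f
  have hMpos' : (0 : ℝ) < (M : ℝ) := by exact_mod_cast hMpos
  refine isBoundedAtImInfty_of_iterate_D w (F := eichler N w f ∣[-(w : ℤ)] δ)
    (g := (f : ℍ → ℂ) ∣[(w : ℤ) + 2] δ) hMpos' (hE.mdiff.slash _ _) ?_ ?_ ?_ ?_
  · exact SlashInvariantFormClass.periodic_comp_ofComplex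
      (SlashInvariantForm.translate (eichlerSIF N w f h) (Matrix.SpecialLinearGroup.mapGL ℝ δ)) hMδ
  · rw [bol_SL w hE.mdiff δ, hE.deriv_eq]
  · exact SlashInvariantFormClass.periodic_comp_ofComplex
      (CuspForm.translate f (Matrix.SpecialLinearGroup.mapGL ℝ δ)) hMδ
  · exact CuspFormClass.zero_at_infty_slash f δ

/-- The Eichler integral as a modular form of weight `-w`, when all period vectors vanish. -/
def eichlerMF (f : CuspForm (Gamma0 N) ((w : ℤ) + 2))
    (h : ∀ γ : Gamma0 N, periodVec N w f γ = 0) :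
    ModularForm (Gamma0 N : Subgroup (GL (Fin 2) ℝ)) (-(w : ℤ)) where
  toSlashInvariantForm := eichlerSIF N w f h
  holo' := (eichler_spec N w f).mdiff
  bdd_at_cusps' := by
    intro c hc
    rw [Subgroup.IsArithmetic.isCusp_iff_isCusp_SL2Z] at hc
    rw [OnePoint.isBoundedAt_iff_forall_SL2Z hc]
    intro γ _
    exact eichler_slash_isBoundedAtImInfty N w f h γ

theorem eichlerMF_coe (f : CuspForm (Gamma0 N) ((w : ℤ) + 2))
    (h : ∀ γ : Gamma0 N, periodVec N w f γ = 0) :
    ⇑(eichlerMF N w f h) = eichler N w f := rfl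

theorem eq_zero_of_periodVec_eq_zero (f : CuspForm (Gamma0 N) ((w : ℤ) + 2))
    (h : ∀ γ : Gamma0 N, periodVec N w f γ = 0) : f = 0 := by
  have hE := eichler_spec N w f
  have h1 : (1 : ℝ) ∈ (Gamma0 N : Subgroup (GL (Fin 2) ℝ)).strictPeriods :=
    one_mem_strictPeriods_Gamma0 N
  have hF : eichlerMF N w f h = 0 := by
    refine ModularForm.sturm_bound_Gamma0 N (eichlerMF N w f h) ?_
    intro n hn
    have hk : ((-(w : ℤ)) * ((Gamma0 N).index : ℤ)).toNat = 0 := by
      apply Int.toNat_of_nonpos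
      have : (0 : ℤ) ≤ (w : ℤ) * ((Gamma0 N).index : ℤ) := by positivity
      linarith
    rw [hk] at hn
    obtain rfl : n = 0 := by omega
    rw [qExpansion_coeff_zero one_pos
      (ModularFormClass.analyticAt_cuspFunction_zero (eichlerMF N w f h) one_pos h1)
      (SlashInvariantFormClass.periodic_comp_ofComplex (eichlerMF N w f h) h1)]
    exact hE.zero.valueAtInfty_eq_zero
  have hE0 : eichler N w f = 0 := by
    rw [← eichlerMF_coe N w f h, hF]
    rfl
  have hf0 : (f : ℍ → ℂ) = 0 := by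
    rw [← hE.deriv_eq, hE0, iterate_D_zero]
  exact DFunLike.coe_injective hf0

theorem periodLattice_separates (f : CuspForm (Gamma0 N) ((w : ℤ) + 2))
    (h : ∀ φ ∈ periodLattice N w, φ f = 0) : f = 0 := by
  refine eq_zero_of_periodVec_eq_zero N w f fun γ => ?_
  funext i
  exact h _ (periodLin_mem_periodLattice N w γ i)

end

end Fermat.Agent.S22
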