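import Fermat.Agent.S22.Period

/-!
# S22 infrastructure: the period lattice is finitely generated  (OWNER: helper3)

`Γ₀(N)` is a finitely generated group (Schreier + `SL2Z_generators`), and by the cocycle relation
`periodVec_mul` / `periodVec_inv` / `periodVec_one` every `periodLin γ i` is an integer combination
of the `periodLin γ₀ j` with `γ₀` in a finite generating set.
-/

set_option autoImplicit false

open UpperHalfPlane ModularForm Derivative CongruenceSubgroup
open scoped MatrixGroups Manifold ModularForm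

namespace Fermat.Agent.S22

noncomputable section

/-- `SL(2, ℤ)` is a finitely generated group. -/
theorem SL2Z_groupFG : Group.FG SL(2, ℤ) := by
  rw [Group.fg_iff]
  exact ⟨{ModularGroup.S, ModularGroup.T}, SpecialLinearGroup.SL2Z_generators, by simp⟩

/-- `Γ₀(N)` is a finitely generated group. -/
theorem Gamma0_groupFG (N : ℕ) [NeZero N] : Group.FG (Gamma0 N) := by
  have := SL2Z_groupFG
  exact Subgroup.fg_of_index_ne_zero _

variable (N : ℕ) [NeZero N] (w : ℕ)

theorem periodLin_one (i : Fin (w + 1)) : periodLin N w 1 i = 0 := by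
  apply LinearMap.ext
  intro f
  rw [periodLin_apply, periodVec_one]
  rfl

theorem periodLin_mul (γ δ : Gamma0 N) (j : Fin (w + 1)) :
    periodLin N w (γ * δ) j =
      ∑ i, (actMat w ((δ : SL(2, ℤ)) 0 0) ((δ : SL(2, ℤ)) 0 1) ((δ : SL(2, ℤ)) 1 0)
        ((δ : SL(2, ℤ)) 1 1) j i) • periodLin N w γ i + periodLin N w δ j := by
  apply LinearMap.ext
  intro f
  rw [periodLin_apply, periodVec_mul]
  simp only [Pi.add_apply, actVec, LinearMap.add_apply, LinearMap.sum_apply,
    LinearMap.smul_apply, periodLin_apply, zsmul_eq_mul]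

theorem periodLin_inv (γ : Gamma0 N) (j : Fin (w + 1)) :
    periodLin N w γ⁻¹ j =
      - ∑ i, (actMat w (((γ⁻¹ : Gamma0 N) : SL(2, ℤ)) 0 0) (((γ⁻¹ : Gamma0 N) : SL(2, ℤ)) 0 1)
        (((γ⁻¹ : Gamma0 N) : SL(2, ℤ)) 1 0) (((γ⁻¹ : Gamma0 N) : SL(2, ℤ)) 1 1) j i) •
          periodLin N w γ i := by
  apply LinearMap.ext
  intro f
  rw [periodLin_apply, periodVec_inv]
  simp only [Pi.neg_apply, actVec, LinearMap.neg_apply, LinearMap.sum_apply,
    LinearMap.smul_apply, periodLin_apply, zsmul_eq_mul]

theorem periodLattice_fg : (periodLattice N w).FG := by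
  classical
  obtain ⟨S, hS, hSfin⟩ := Group.fg_iff.mp (Gamma0_groupFG N)
  set L : Submodule ℤ (Module.Dual ℂ (CuspForm (Gamma0 N) ((w : ℤ) + 2))) :=
    Submodule.span ℤ ((fun x : Gamma0 N × Fin (w + 1) => periodLin N w x.1 x.2) ''
      (S ×ˢ (Set.univ : Set (Fin (w + 1))))) with hL
  have hLfg : L.FG :=
    Submodule.fg_span ((hSfin.prod Set.finite_univ).image _)
  have key : ∀ γ : Gamma0 N, ∀ i : Fin (w + 1), periodLin N w γ i ∈ L := by
    intro γ
    have hγ : γ ∈ Subgroup.closure S := by rw [hS]; exact Subgroup.mem_top γ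
    induction hγ using Subgroup.closure_induction with
    | mem x hx =>
      intro i
      exact Submodule.subset_span ⟨(x, i), ⟨hx, Set.mem_univ i⟩, rfl⟩
    | one =>
      intro i
      rw [periodLin_one]
      exact L.zero_mem
    | mul x y _ _ hx hy =>
      intro j
      rw [periodLin_mul]
      exact L.add_mem (L.sum_mem fun i _ => L.smul_mem _ (hx i)) (hy j)
    | inv x _ hx =>
      intro j
      rw [periodLin_inv]
      exact L.neg_mem (L.sum_mem fun i _ => L.smul_mem _ (hx i))
  have hle : periodLattice N w ≤ L := by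
    refine Submodule.span_le.mpr ?_
    rintro _ ⟨⟨γ, i⟩, rfl⟩
    exact key γ i
  have hge : L ≤ periodLattice N w := by
    refine Submodule.span_le.mpr ?_
    rintro _ ⟨⟨γ, i⟩, _, rfl⟩
    exact periodLin_mem_periodLattice N w γ i
  rw [le_antisymm hle hge]
  exact hLfg

end

end Fermat.Agent.S22
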