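import Mathlib
import Fermat.Prelude.Def_CuspForm_HeckeAlgebra
import Fermat.Agent.S07.Helpers

/-!
# S22 infrastructure: the trivial weights `k ≤ 1`  (OWNER: helper3)
-/

set_option autoImplicit false

open UpperHalfPlane ModularForm CongruenceSubgroup
open scoped MatrixGroups Manifold ModularForm

namespace Fermat.Agent.S22

/-- Cusp forms of weight `1` on `Γ₀(N)` vanish, because `-1 ∈ Γ₀(N)`. -/
theorem cuspForm_weight_one_eq_zero (N : ℕ) (f : CuspForm (Gamma0 N) 1) : f = 0 := by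
  have hmem : (-1 : SL(2, ℤ)) ∈ Gamma0 N := by
    rw [Gamma0_mem]
    simp
  have h := SlashInvariantForm.slash_action_eqn f
    (Matrix.SpecialLinearGroup.mapGL ℝ (-1 : SL(2, ℤ))) (Subgroup.mem_map_of_mem _ hmem)
  ext z
  have hz := congrFun h z
  have h2 : (⇑f ∣[(1 : ℤ)] (-1 : SL(2, ℤ))) z = f z := hz
  rw [ModularForm.SL_slash_apply] at h2
  have hsm : (-1 : SL(2, ℤ)) • z = z := by
    rw [ModularGroup.SL_neg_smul, one_smul]
  rw [hsm] at h2
  have hden : denom (Matrix.SpecialLinearGroup.toGL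
      ((Matrix.SpecialLinearGroup.map (Int.castRingHom ℝ)) (-1 : SL(2, ℤ)))) (z : ℂ) = -1 := by
    simp [denom]
  rw [hden] at h2
  have h3 : f z * (-1) = f z := by simpa using h2
  have h4 : f z = 0 := by linear_combination (-1 / 2 : ℂ) * h3
  simpa using h4

/-- Cusp forms of weight `k ≤ 1` on `Γ₀(N)` vanish (`k ≤ 0`: Sturm bound; `k = 1`: `-1 ∈ Γ₀(N)`). -/
theorem cuspForm_eq_zero_of_lt_two (N : ℕ) [NeZero N] {k : ℤ} (hk : k < 2)
    (f : CuspForm (Gamma0 N) k) : f = 0 := by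
  rcases lt_or_eq_of_le (Int.lt_add_one_iff.mp (show k < 1 + 1 by omega)) with h | h
  · apply Fermat.Agent.S07.cuspForm_Gamma0_eq_zero_of_small N _ f
    have hk0 : k ≤ 0 := by omega
    have hnonpos : k * ((Gamma0 N).index : ℤ) ≤ 0 :=
      mul_nonpos_of_nonpos_of_nonneg hk0 (Int.natCast_nonneg _)
    rw [Int.toNat_of_nonpos hnonpos]
  · subst h
    exact cuspForm_weight_one_eq_zero N f

theorem moduleFinite_heckeAlgebra_of_lt_two (N : ℕ) [NeZero N] {k : ℤ} (hk : k < 2) (S : Set ℕ) :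
    Module.Finite ℤ (CuspForm.heckeAlgebra N k S) := by
  haveI : Subsingleton (CuspForm (Gamma0 N) k) :=
    ⟨fun f g => by rw [cuspForm_eq_zero_of_lt_two N hk f, cuspForm_eq_zero_of_lt_two N hk g]⟩
  haveI : Subsingleton (Module.End ℂ (CuspForm (Gamma0 N) k)) :=
    ⟨fun a b => LinearMap.ext fun v => Subsingleton.elim _ _⟩
  haveI : Subsingleton (CuspForm.heckeAlgebra N k S) :=
    ⟨fun a b => Subtype.ext (Subsingleton.elim _ _)⟩
  exact Module.Finite.of_surjective (0 : ℤ →ₗ[ℤ] CuspForm.heckeAlgebra N k S)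
      fun y => ⟨0, Subsingleton.elim _ _⟩

end Fermat.Agent.S22
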