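import Mathlib

/-!
# Bol's identity

For a holomorphic function `F` on the upper half plane, `g ∈ GL₂(ℝ)` with positive determinant
and `w : ℕ`, we have
`(D^[w+1] F) ∣[w+2] g = (det g)^(w+1) • D^[w+1] (F ∣[-w] g)`,
where `D = (2πi)⁻¹ d/dz`.
-/

set_option autoImplicit false

open UpperHalfPlane hiding I
open Real Complex Derivative
open scoped Manifold MatrixGroups ModularForm Topology

namespace Fermat.Agent.S22

noncomputable section

/-- `X_g(z) = -(2πi)⁻¹ c/(cz+d)`. -/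
def bolX (g : GL (Fin 2) ℝ) : ℍ → ℂ :=
  fun z => -((2 * π * I)⁻¹ * ((g 1 0 : ℂ) * (denom g z) ^ (-1 : ℤ)))

theorem mdiff_bolX (g : GL (Fin 2) ℝ) : MDiff (bolX g) := by
  unfold bolX
  have h1 : MDiff (fun z : ℍ => (denom g z) ^ (-1 : ℤ)) := mdifferentiable_denom_zpow g (-1)
  have h2 : MDiff (fun z : ℍ => (-((2 * π * I)⁻¹ * (g 1 0 : ℂ))) * (denom g z) ^ (-1 : ℤ)) :=
    mdifferentiable_const.mul h1
  have h3 : (fun z : ℍ => -((2 * π * I)⁻¹ * ((g 1 0 : ℂ) * (denom g z) ^ (-1 : ℤ)))) =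
      (fun z : ℍ => (-((2 * π * I)⁻¹ * (g 1 0 : ℂ))) * (denom g z) ^ (-1 : ℤ)) := by
    ext z
    ring
  rw [h3]
  exact h2

theorem D_bolX (g : GL (Fin 2) ℝ) : D (bolX g) = bolX g * bolX g := by
  ext z
  have h1 := hasDerivAt_denom_zpow g (-1) z
  have h2 : HasDerivAt (fun w : ℂ => -((2 * π * I)⁻¹ * ((g 1 0 : ℂ) * (denom g w) ^ (-1 : ℤ))))
      (-((2 * π * I)⁻¹ * ((g 1 0 : ℂ) * (((-1 : ℤ) : ℂ) * (g 1 0 : ℂ) *
        denom g z ^ ((-1 : ℤ) - 1))))) z :=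
    ((h1.const_mul _).const_mul _).neg
  have hcomp : (bolX g ∘ ofComplex) =ᶠ[𝓝 (z : ℂ)]
      fun w : ℂ => -((2 * π * I)⁻¹ * ((g 1 0 : ℂ) * (denom g w) ^ (-1 : ℤ))) := by
    filter_upwards [isOpen_upperHalfPlaneSet.mem_nhds z.im_pos] with w hw
    simp [bolX, Function.comp_apply, ofComplex_apply_of_im_pos hw]
  simp only [normalizedDerivOfComplex, Pi.mul_apply]
  rw [(h2.congr_of_eventuallyEq hcomp).deriv]
  simp only [bolX]
  have hz := denom_ne_zero g z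
  rw [show ((-1 : ℤ) - 1) = -2 by norm_num]
  simp only [zpow_neg, zpow_one, Int.cast_neg, Int.cast_one]
  have h2pi : (2 * (π : ℂ) * I) ≠ 0 := by
    simp [Real.pi_ne_zero]
  rw [show (denom g z) ^ (2 : ℤ) = denom g z * denom g z by rw [zpow_two]]
  field_simp

/-- The first order operator `L_m = D + m X_g`. -/
def bolL (g : GL (Fin 2) ℝ) (m : ℤ) (H : ℍ → ℂ) : ℍ → ℂ :=
  D H + (m : ℂ) • (bolX g * H)

theorem mdiff_bolL (g : GL (Fin 2) ℝ) (m : ℤ) {H : ℍ → ℂ} (hH : MDiff H) :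
    MDiff (bolL g m H) := by
  unfold bolL
  exact (normalizedDerivOfComplex_mdifferentiable hH).add
    (((mdiff_bolX g).mul hH).const_smul _)

theorem bolL_zero (g : GL (Fin 2) ℝ) (H : ℍ → ℂ) : bolL g 0 H = D H := by
  unfold bolL
  simp

theorem bolL_smul (g : GL (Fin 2) ℝ) (m : ℤ) (c : ℂ) {H : ℍ → ℂ} (hH : MDiff H) :
    bolL g m (c • H) = c • bolL g m H := by
  unfold bolL
  rw [normalizedDerivOfComplex_smul c H hH]
  ext z
  simp only [Pi.add_apply, Pi.smul_apply, Pi.mul_apply, smul_eq_mul]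
  ring

theorem bolL_swap (g : GL (Fin 2) ℝ) (a b : ℤ) {H : ℍ → ℂ} (hH : MDiff H) :
    bolL g a (bolL g b H) = bolL g (b - 1) (bolL g (a + 1) H) := by
  have hX := mdiff_bolX g
  have hDH := normalizedDerivOfComplex_mdifferentiable hH
  have hXH : MDiff (bolX g * H) := hX.mul hH
  have key : ∀ c : ℤ, D (bolL g c H) = D (D H) + (c : ℂ) • (bolX g * bolX g * H + bolX g * D H) := by
    intro c
    unfold bolL
    rw [normalizedDerivOfComplex_add _ _ hDH (hXH.const_smul _),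
      normalizedDerivOfComplex_smul _ _ hXH, normalizedDerivOfComplex_mul _ _ hX hH, D_bolX]
  have e1 : bolL g a (bolL g b H) = D (bolL g b H) + (a : ℂ) • (bolX g * bolL g b H) := rfl
  have e2 : bolL g (b - 1) (bolL g (a + 1) H) =
      D (bolL g (a + 1) H) + ((b - 1 : ℤ) : ℂ) • (bolX g * bolL g (a + 1) H) := rfl
  rw [e1, e2, key, key]
  ext z
  simp only [bolL, Pi.add_apply, Pi.smul_apply, Pi.mul_apply, smul_eq_mul]
  push_cast
  ring

theorem mdiff_iterate_bolL (g : GL (Fin 2) ℝ) (m : ℤ) (n : ℕ) {H : ℍ → ℂ} (hH : MDiff H) :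
    MDiff ((bolL g m)^[n] H) := by
  induction n with
  | zero => exact hH
  | succ n ih =>
    rw [Function.iterate_succ_apply']
    exact mdiff_bolL g m ih

theorem bolL_iterate (g : GL (Fin 2) ℝ) (c : ℤ) (n : ℕ) :
    ∀ (a : ℤ) {H : ℍ → ℂ}, MDiff H →
      bolL g a ((bolL g (c + 1))^[n] H) = (bolL g c)^[n] (bolL g (a + n) H) := by
  induction n with
  | zero =>
    intro a H _
    simp
  | succ n ih =>
    intro a H hH
    rw [Function.iterate_succ_apply', bolL_swap g a (c + 1) (mdiff_iterate_bolL g _ n hH),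
      show c + 1 - 1 = c by ring, ih (a + 1) hH, Function.iterate_succ_apply']
    congr 3
    push_cast
    ring

/-- The product `L_a L_{a+2} ⋯ L_{a+2(n-1)}`. -/
def bolR (g : GL (Fin 2) ℝ) : ℕ → ℤ → (ℍ → ℂ) → (ℍ → ℂ)
  | 0, _, H => H
  | n + 1, a, H => bolL g a (bolR g n (a + 2) H)

theorem bolR_eq (g : GL (Fin 2) ℝ) (n : ℕ) :
    ∀ (a : ℤ) {H : ℍ → ℂ}, MDiff H → bolR g n a H = (bolL g (a + n - 1))^[n] H := by
  induction n with
  | zero =>
    intro a H _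
    rfl
  | succ n ih =>
    intro a H hH
    have h1 : bolR g (n + 1) a H = bolL g a (bolR g n (a + 2) H) := rfl
    rw [h1, ih (a + 2) hH, show a + 2 + (n : ℤ) - 1 = (a + n) + 1 by ring,
      bolL_iterate g (a + n) n a hH, ← Function.iterate_succ_apply,
      show a + ((n + 1 : ℕ) : ℤ) - 1 = a + n by push_cast; ring]

theorem mdiff_iterate_D (n : ℕ) {F : ℍ → ℂ} (hF : MDiff F) : MDiff (D^[n] F) := by
  induction n with
  | zero => exact hF
  | succ n ih =>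
    rw [Function.iterate_succ_apply']
    exact normalizedDerivOfComplex_mdifferentiable ih

theorem mdiff_bolR (g : GL (Fin 2) ℝ) (n : ℕ) :
    ∀ (a : ℤ) {H : ℍ → ℂ}, MDiff H → MDiff (bolR g n a H) := by
  induction n with
  | zero => intro a H hH; exact hH
  | succ n ih =>
    intro a H hH
    exact mdiff_bolL g a (ih (a + 2) hH)

/-- One step: `(D F) ∣[k+2] g = det g • L_{-k} (F ∣[k] g)`. -/
theorem D_slash_eq (k : ℤ) {F : ℍ → ℂ} (hF : MDiff F) {g : GL (Fin 2) ℝ}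
    (hg : 0 < g.val.det) :
    (D F) ∣[k + 2] g = ((g.val.det : ℝ) : ℂ) • bolL g (-k) (F ∣[k] g) := by
  have h := normalizedDerivOfComplex_slash (k := k) hF hg
  have hdetℂ : ((g.val.det : ℝ) : ℂ) ≠ 0 := Complex.ofReal_ne_zero.mpr hg.ne'
  ext z
  have hz := congrFun h z
  simp only [bolL, bolX, Pi.add_apply, Pi.smul_apply, Pi.mul_apply, smul_eq_mul, hz]
  simp only [zpow_neg, zpow_one, Int.cast_neg]
  field_simp
  ring

theorem iterate_D_slash_eq (n : ℕ) (k : ℤ) {F : ℍ → ℂ} (hF : MDiff F) {g : GL (Fin 2) ℝ}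
    (hg : 0 < g.val.det) :
    (D^[n] F) ∣[k + 2 * (n : ℤ)] g =
      (((g.val.det : ℝ) : ℂ) ^ n) • bolR g n (-k - 2 * ((n : ℤ) - 1)) (F ∣[k] g) := by
  induction n with
  | zero =>
    simp [bolR]
  | succ n ih =>
    have hFg : MDiff (F ∣[k] g) := hF.slash k g
    have hR : MDiff (bolR g n (-k - 2 * ((n : ℤ) - 1)) (F ∣[k] g)) := mdiff_bolR g n _ hFg
    rw [Function.iterate_succ_apply',
      show k + 2 * ((n + 1 : ℕ) : ℤ) = (k + 2 * (n : ℤ)) + 2 by push_cast; ring,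
      D_slash_eq (k + 2 * (n : ℤ)) (mdiff_iterate_D n hF) hg, ih, bolL_smul g _ _ hR, smul_smul,
      ← pow_succ']
    congr 1
    have : bolR g (n + 1) (-k - 2 * (((n + 1 : ℕ) : ℤ) - 1)) (F ∣[k] g) =
        bolL g (-k - 2 * (((n + 1 : ℕ) : ℤ) - 1))
          (bolR g n (-k - 2 * (((n + 1 : ℕ) : ℤ) - 1) + 2) (F ∣[k] g)) := rfl
    rw [this]
    congr 1
    · push_cast; ring
    · congr 1
      push_cast; ring

/-- **Bol's identity**. -/
theorem bol_identity (w : ℕ) {F : ℍ → ℂ} (hF : MDiff F) {g : GL (Fin 2) ℝ}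
    (hg : 0 < g.val.det) :
    (D^[w + 1] F) ∣[(w : ℤ) + 2] g =
      (((g.val.det : ℝ) : ℂ) ^ (w + 1)) • D^[w + 1] (F ∣[-(w : ℤ)] g) := by
  have h := iterate_D_slash_eq (w + 1) (-(w : ℤ)) hF hg
  have hFg : MDiff (F ∣[-(w : ℤ)] g) := hF.slash _ g
  rw [show -(w : ℤ) + 2 * ((w + 1 : ℕ) : ℤ) = (w : ℤ) + 2 by push_cast; ring] at h
  rw [h, bolR_eq g (w + 1) _ hFg]
  congr 2
  have h0 : - -(w : ℤ) - 2 * (((w + 1 : ℕ) : ℤ) - 1) + ((w + 1 : ℕ) : ℤ) - 1 = 0 := by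
    push_cast; ring
  rw [h0]
  funext H
  exact bolL_zero g H

end

end Fermat.Agent.S22
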