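import Fermat.Agent.S22.Basic
import Fermat.Agent.S22.Bol

/-!
# S22 infrastructure: Bol's identity in the form used by the period machinery
-/

set_option autoImplicit false

open UpperHalfPlane ModularForm Derivative CongruenceSubgroup
open scoped MatrixGroups Manifold ModularForm

namespace Fermat.Agent.S22

noncomputable section

/-- **Bol's identity** for `g ∈ GL₂⁺(ℝ)`:
`D^{n+1} (F ∣[-n] g) = det(g)^{-(n+1)} • (D^{n+1} F) ∣[n+2] g`. -/
theorem bol (n : ℕ) {F : ℍ → ℂ} (hF : MDiff F) {g : GL (Fin 2) ℝ} (hg : 0 < g.val.det) :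
    D^[n + 1] (F ∣[-(n : ℤ)] g) =
      ((g.val.det : ℂ)⁻¹) ^ (n + 1) • ((D^[n + 1] F) ∣[(n : ℤ) + 2] g) := by
  have hdet : ((g.val.det : ℝ) : ℂ) ≠ 0 := Complex.ofReal_ne_zero.mpr hg.ne'
  rw [bol_identity n hF hg, smul_smul, ← mul_pow, inv_mul_cancel₀ hdet, one_pow, one_smul]

/-- Bol's identity for `γ ∈ SL₂(ℤ)`. -/
theorem bol_SL (n : ℕ) {F : ℍ → ℂ} (hF : MDiff F) (γ : SL(2, ℤ)) :
    D^[n + 1] (F ∣[-(n : ℤ)] γ) = (D^[n + 1] F) ∣[(n : ℤ) + 2] γ := by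
  have hdet : (γ : GL (Fin 2) ℝ).val.det = 1 := by
    rw [← Matrix.GeneralLinearGroup.val_det_apply]; simp
  have h := bol n hF (g := (γ : GL (Fin 2) ℝ)) (by rw [hdet]; exact one_pos)
  rw [hdet] at h
  simpa [ModularForm.SL_slash] using h

end

end Fermat.Agent.S22
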