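import Mathlib
import Fermat.Agent.S22.Bol

/-!
# Holomorphic functions on the upper half plane with vanishing iterated derivative are polynomials
-/

set_option autoImplicit false

open UpperHalfPlane hiding I
open Real Complex Derivative Polynomial
open scoped Manifold MatrixGroups ModularForm Topology

namespace Fermat.Agent.S22

noncomputable section

theorem isPreconnected_uhp : IsPreconnected {z : ℂ | 0 < z.im} :=
  (convex_halfSpace_im_gt 0).isPreconnected

/-- A holomorphic function on `ℍ` with `D F = 0` is constant. -/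
theorem exists_const_of_D_eq_zero {G : ℍ → ℂ} (hG : MDiff G) (h : D G = 0) :
    ∃ c : ℂ, ∀ z : ℍ, G z = c := by
  have hdiff : DifferentiableOn ℂ (G ∘ ofComplex) {z : ℂ | 0 < z.im} :=
    UpperHalfPlane.mdifferentiable_iff.mp hG
  have hderiv : {z : ℂ | 0 < z.im}.EqOn (deriv (G ∘ ofComplex)) 0 := by
    intro z hz
    have h1 := congrFun h ⟨z, hz⟩
    have h2pi : (2 * (π : ℂ) * I)⁻¹ ≠ 0 := by simp [Real.pi_ne_zero]
    simp only [normalizedDerivOfComplex, Pi.zero_apply] at h1
    rcases mul_eq_zero.mp h1 with h1 | h1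
    · exact absurd h1 h2pi
    · exact h1
  obtain ⟨a, ha⟩ := isOpen_upperHalfPlaneSet.exists_is_const_of_deriv_eq_zero isPreconnected_uhp
    hdiff hderiv
  refine ⟨a, fun z => ?_⟩
  have := ha (z : ℂ) z.im_pos
  simpa using this

/-- Polynomial functions are holomorphic on `ℍ`. -/
theorem mdiff_polynomial (P : ℂ[X]) : MDiff (fun z : ℍ => P.eval (z : ℂ)) := by
  rw [UpperHalfPlane.mdifferentiable_iff]
  have h : DifferentiableOn ℂ (fun w : ℂ => P.eval w) {z : ℂ | 0 < z.im} :=
    P.differentiable.differentiableOn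
  refine h.congr ?_
  intro w hw
  simp [Function.comp_apply, ofComplex_apply_of_im_pos hw]

/-- `D` of a polynomial function. -/
theorem D_polynomial (P : ℂ[X]) :
    D (fun z : ℍ => P.eval (z : ℂ)) = fun z : ℍ => (2 * π * I)⁻¹ * (derivative P).eval (z : ℂ) := by
  ext z
  have hcomp : ((fun z : ℍ => P.eval (z : ℂ)) ∘ ofComplex) =ᶠ[𝓝 (z : ℂ)] fun w : ℂ => P.eval w := by
    filter_upwards [isOpen_upperHalfPlaneSet.mem_nhds z.im_pos] with w hw
    simp [Function.comp_apply, ofComplex_apply_of_im_pos hw]
  simp only [normalizedDerivOfComplex]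
  rw [hcomp.deriv_eq, Polynomial.deriv]

/-- Antiderivative of a polynomial. -/
def polyAntideriv (P : ℂ[X]) : ℂ[X] :=
  P.sum fun i a => monomial (i + 1) (a / ((i : ℂ) + 1))

theorem derivative_polyAntideriv (P : ℂ[X]) : derivative (polyAntideriv P) = P := by
  unfold polyAntideriv
  rw [Polynomial.sum_def, derivative_sum]
  conv_rhs => rw [← Polynomial.sum_monomial_eq P, Polynomial.sum_def]
  refine Finset.sum_congr rfl fun i _ => ?_
  rw [derivative_monomial]
  congr 1
  have : ((i : ℂ) + 1) ≠ 0 := by
    exact_mod_cast Nat.succ_ne_zero i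
  push_cast
  field_simp

theorem degree_polyAntideriv_lt (P : ℂ[X]) (n : ℕ) (hP : P.degree < n) :
    (polyAntideriv P).degree < (n + 1 : ℕ) := by
  unfold polyAntideriv
  rw [Polynomial.sum_def]
  refine lt_of_le_of_lt (Polynomial.degree_sum_le _ _) ?_
  rw [Finset.sup_lt_iff (by exact_mod_cast WithBot.bot_lt_coe (n + 1))]
  intro i hi
  refine lt_of_le_of_lt (Polynomial.degree_monomial_le _ _) ?_
  have h1 : (i : WithBot ℕ) ≤ P.degree := Polynomial.le_degree_of_mem_supp i hi
  have h2 : (i : WithBot ℕ) < n := lt_of_le_of_lt h1 hP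
  have h3 : i < n := by exact_mod_cast h2
  exact_mod_cast Nat.succ_lt_succ h3

/-- A holomorphic function on `ℍ` whose `n`-th derivative vanishes is a polynomial of
degree `< n`. -/
theorem exists_poly_of_iterate_D_eq_zero (n : ℕ) :
    ∀ {H : ℍ → ℂ}, MDiff H → D^[n] H = 0 →
      ∃ P : ℂ[X], P.degree < n ∧ ∀ z : ℍ, H z = P.eval (z : ℂ) := by
  induction n with
  | zero =>
    intro H _ h
    refine ⟨0, by simp, fun z => ?_⟩
    have := congrFun h z
    simpa using this
  | succ n ih =>
    intro H hH h
    rw [Function.iterate_succ_apply] at h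
    obtain ⟨P, hPdeg, hP⟩ := ih (normalizedDerivOfComplex_mdifferentiable hH) h
    set Q : ℂ[X] := C (2 * π * I) * polyAntideriv P with hQ
    have h2pi : (2 * (π : ℂ) * I) ≠ 0 := by simp [Real.pi_ne_zero]
    have hQdeg : Q.degree < (n + 1 : ℕ) := by
      refine lt_of_le_of_lt (Polynomial.degree_mul_le _ _) ?_
      rw [Polynomial.degree_C h2pi, zero_add]
      exact degree_polyAntideriv_lt P n hPdeg
    have hQder : derivative Q = C (2 * π * I) * P := by
      rw [hQ, derivative_C_mul, derivative_polyAntideriv]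
    have hG : MDiff (H - fun z : ℍ => Q.eval (z : ℂ)) := hH.sub (mdiff_polynomial Q)
    have hDG : D (H - fun z : ℍ => Q.eval (z : ℂ)) = 0 := by
      rw [normalizedDerivOfComplex_sub _ _ hH (mdiff_polynomial Q), D_polynomial, hQder]
      ext z
      simp only [Pi.sub_apply, Pi.zero_apply, hP z, eval_mul, eval_C]
      field_simp
      ring
    obtain ⟨c, hc⟩ := exists_const_of_D_eq_zero hG hDG
    refine ⟨Q + C c, ?_, fun z => ?_⟩
    · refine lt_of_le_of_lt (Polynomial.degree_add_le _ _) (max_lt hQdeg ?_)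
      refine lt_of_le_of_lt Polynomial.degree_C_le ?_
      exact_mod_cast Nat.succ_pos n
    · have := hc z
      simp only [Pi.sub_apply] at this
      rw [eval_add, eval_C, ← this]
      ring

/-- A polynomial is determined by its values on the upper half plane. -/
theorem poly_eq_of_eval_eq {P Q : ℂ[X]} (h : ∀ z : ℍ, P.eval (z : ℂ) = Q.eval (z : ℂ)) :
    P = Q := by
  apply Polynomial.eq_of_infinite_eval_eq P Q
  have hsub : Set.range (fun z : ℍ => (z : ℂ)) ⊆ {x | P.eval x = Q.eval x} := by
    rintro _ ⟨z, rfl⟩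
    exact h z
  refine Set.Infinite.mono hsub ?_
  apply Set.infinite_range_of_injective
  exact UpperHalfPlane.coe_injective

/-- A polynomial which is periodic on the upper half plane is constant. -/
theorem poly_const_of_periodic {P : ℂ[X]} {h : ℝ} (hh : h ≠ 0)
    (hper : ∀ z : ℍ, P.eval ((z : ℂ) + h) = P.eval (z : ℂ)) : ∃ c : ℂ, P = C c := by
  refine ⟨P.eval (I : ℂ), ?_⟩
  apply Polynomial.eq_of_infinite_eval_eq
  have key : ∀ n : ℕ, P.eval ((I : ℂ) + n * h) = P.eval (I : ℂ) := by
    intro n
    induction n with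
    | zero => simp
    | succ n ih =>
      have hpos : 0 < ((I : ℂ) + n * h).im := by simp
      have := hper ⟨(I : ℂ) + n * h, hpos⟩
      simp only at this
      rw [← ih, ← this]
      congr 1
      push_cast
      ring
  have hsub : Set.range (fun n : ℕ => (I : ℂ) + n * h) ⊆ {x | P.eval x = (C (P.eval I)).eval x} := by
    rintro _ ⟨n, rfl⟩
    simp only [Set.mem_ofPred_eq, eval_C]
    exact key n
  refine Set.Infinite.mono hsub ?_
  apply Set.infinite_range_of_injective
  intro m n hmn
  simp only [add_right_inj] at hmn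
  have hhc : (h : ℂ) ≠ 0 := by exact_mod_cast hh
  have := mul_right_cancel₀ hhc hmn
  exact_mod_cast this

end

end Fermat.Agent.S22
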