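import Fermat.Agent.S22.Basic
import Fermat.Agent.S22.BolCor
import Fermat.Agent.S22.PolyOfDeriv

/-!
# S22 infrastructure: polynomial lemmas and uniqueness of Eichler integrals
-/

set_option autoImplicit false

open UpperHalfPlane ModularForm Derivative CongruenceSubgroup
open scoped MatrixGroups Manifold ModularForm

namespace Fermat.Agent.S22

noncomputable section

open Polynomial in
/-- The polynomial attached to a coefficient vector. -/
def vecPoly {w : ℕ} (c : Fin (w + 1) → ℂ) : ℂ[X] := ∑ i, C (c i) * X ^ (i : ℕ)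

open Polynomial in
theorem eval_vecPoly {w : ℕ} (c : Fin (w + 1) → ℂ) (z : ℂ) :
    (vecPoly c).eval z = polyEval c z := by
  simp [vecPoly, polyEval, Polynomial.eval_finsetSum]

open Polynomial in
theorem coeff_vecPoly {w : ℕ} (c : Fin (w + 1) → ℂ) (j : Fin (w + 1)) :
    (vecPoly c).coeff j = c j := by
  simp only [vecPoly, Polynomial.finsetSum_coeff, Polynomial.coeff_C_mul, Polynomial.coeff_X_pow]
  rw [Finset.sum_eq_single j]
  · simp
  · intro i _ hij
    have : (j : ℕ) ≠ (i : ℕ) := fun h => hij (Fin.ext h.symm)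
    simp [this]
  · simp

open Polynomial in
theorem natDegree_vecPoly_le {w : ℕ} (c : Fin (w + 1) → ℂ) : (vecPoly c).natDegree ≤ w := by
  unfold vecPoly
  refine Polynomial.natDegree_sum_le_of_forall_le _ _ fun i _ => ?_
  refine (Polynomial.natDegree_C_mul_le _ _).trans ?_
  refine (Polynomial.natDegree_X_pow_le _).trans ?_
  omega

open Polynomial in
/-- The coefficient vector of a polynomial of degree `≤ w`. -/
theorem polyEval_coeff {w : ℕ} (P : ℂ[X]) (hP : P.natDegree < w + 1) (z : ℂ) :
    polyEval (fun i : Fin (w + 1) => P.coeff i) z = P.eval z := by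
  rw [Polynomial.eval_eq_sum_range' hP, polyEval, Fin.sum_univ_eq_sum_range
    (fun i => P.coeff i * z ^ i) (w + 1)]

/-- A holomorphic function on `ℍ` killed by `D^{w+1}` is a polynomial of degree `≤ w`. -/
theorem exists_polyEval_of_iterate_D_eq_zero (w : ℕ) {P : ℍ → ℂ} (hP : MDiff P)
    (h : D^[w + 1] P = 0) : ∃ c : Fin (w + 1) → ℂ, ∀ z : ℍ, P z = polyEval c z := by
  obtain ⟨Q, hQdeg, hQ⟩ := exists_poly_of_iterate_D_eq_zero (w + 1) hP h
  refine ⟨fun i => Q.coeff i, fun z => ?_⟩
  rw [hQ z, polyEval_coeff]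
  by_cases hQ0 : Q = 0
  · simp [hQ0]
  · exact (Polynomial.natDegree_lt_iff_degree_lt hQ0).mpr hQdeg

/-- Coefficient vectors are determined by the polynomial function on `ℍ`. -/
theorem polyEval_injective {w : ℕ} {c c' : Fin (w + 1) → ℂ}
    (h : ∀ z : ℍ, polyEval c z = polyEval c' z) : c = c' := by
  have : vecPoly c = vecPoly c' := poly_eq_of_eval_eq fun z => by
    rw [eval_vecPoly, eval_vecPoly, h z]
  funext j
  rw [← coeff_vecPoly c j, this, coeff_vecPoly]

/-- A polynomial function which tends to `0` at `i∞` vanishes. -/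
theorem polyEval_eq_zero_of_isZeroAtImInfty {w : ℕ} {c : Fin (w + 1) → ℂ}
    (h : IsZeroAtImInfty (fun z : ℍ => polyEval c z)) : c = 0 := by
  have him : Filter.Tendsto (fun z : ℍ => z.im) atImInfty Filter.atTop := Filter.tendsto_comap
  have hnorm : Filter.Tendsto (fun z : ℍ => ‖(z : ℂ)‖) atImInfty Filter.atTop := by
    refine Filter.tendsto_atTop_mono (fun z => ?_) him
    exact (le_abs_self _).trans (Complex.abs_im_le_norm _)
  have h0 : Filter.Tendsto (fun z : ℍ => (vecPoly c).eval (z : ℂ)) atImInfty (nhds 0) := by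
    have h' : Filter.Tendsto (fun z : ℍ => polyEval c z) atImInfty (nhds 0) := h
    simpa [eval_vecPoly] using h'
  have hP : vecPoly c = 0 := by
    by_contra hne
    by_cases hdeg : 0 < (vecPoly c).degree
    · have h1 := Polynomial.tendsto_norm_atTop (vecPoly c) hdeg hnorm
      have h2 : Filter.Tendsto (fun z : ℍ => ‖(vecPoly c).eval (z : ℂ)‖) atImInfty (nhds 0) := by
        simpa using h0.norm
      exact not_tendsto_atTop_of_tendsto_nhds h2 h1
    · have hC := Polynomial.eq_C_of_degree_le_zero (not_lt.mp hdeg)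
      have h0' : Filter.Tendsto (fun _ : ℍ => (vecPoly c).coeff 0) atImInfty (nhds 0) := by
        rw [hC] at h0
        simpa using h0
      have := tendsto_nhds_unique h0' tendsto_const_nhds
      apply hne
      rw [hC, ← this]
      simp
  funext j
  rw [← coeff_vecPoly c j, hP]
  simp

/-- A polynomial function on `ℍ` which is periodic with period `h > 0` is constant. -/
theorem polyEval_const_of_periodic {w : ℕ} {c : Fin (w + 1) → ℂ} {h : ℝ} (hh : 0 < h)
    (hper : ∀ z : ℍ, polyEval c ((z : ℂ) + h) = polyEval c z) :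
    ∀ z : ℍ, polyEval c z = c 0 := by
  obtain ⟨a, ha⟩ := poly_const_of_periodic (P := vecPoly c) hh.ne' (fun z => by
    rw [eval_vecPoly, eval_vecPoly, hper z])
  intro z
  have h0 : c 0 = a := by
    rw [← coeff_vecPoly c 0, ha]
    simp
  rw [← eval_vecPoly, ha, h0]
  simp

open Polynomial in
/-- The key evaluation identity for the integer matrix action. -/
theorem polyEval_actVec (w : ℕ) (a b c d : ℤ) (v : Fin (w + 1) → ℂ) (z : ℂ) :
    polyEval (actVec w a b c d v) z
      = ∑ i, v i * ((a : ℂ) * z + b) ^ (i : ℕ) * ((c : ℂ) * z + d) ^ (w - (i : ℕ)) := by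
  -- the integer polynomials
  set Q : Fin (w + 1) → ℤ[X] := fun i =>
    (C a * X + C b) ^ (i : ℕ) * (C c * X + C d) ^ (w - (i : ℕ)) with hQ
  have hdeg : ∀ i : Fin (w + 1), (Q i).natDegree < w + 1 := by
    intro i
    have h1 : (C a * X + C b : ℤ[X]).natDegree ≤ 1 := by
      refine (Polynomial.natDegree_add_le _ _).trans ?_
      simp only [Polynomial.natDegree_C, max_le_iff, zero_le, and_true]
      exact (Polynomial.natDegree_C_mul_le _ _).trans Polynomial.natDegree_X_le
    have h2 : (C c * X + C d : ℤ[X]).natDegree ≤ 1 := by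
      refine (Polynomial.natDegree_add_le _ _).trans ?_
      simp only [Polynomial.natDegree_C, max_le_iff, zero_le, and_true]
      exact (Polynomial.natDegree_C_mul_le _ _).trans Polynomial.natDegree_X_le
    have h3 : (Q i).natDegree ≤ (i : ℕ) * 1 + (w - (i : ℕ)) * 1 := by
      refine Polynomial.natDegree_mul_le.trans ?_
      exact add_le_add (Polynomial.natDegree_pow_le_of_le _ h1)
        (Polynomial.natDegree_pow_le_of_le _ h2)
    have hi : (i : ℕ) < w + 1 := i.2
    omega
  have heval : ∀ i : Fin (w + 1),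
      ∑ j : Fin (w + 1), ((Q i).coeff j : ℂ) * z ^ (j : ℕ)
        = ((a : ℂ) * z + b) ^ (i : ℕ) * ((c : ℂ) * z + d) ^ (w - (i : ℕ)) := by
    intro i
    have h1 : ((Q i).map (Int.castRingHom ℂ)).eval z
        = ((a : ℂ) * z + b) ^ (i : ℕ) * ((c : ℂ) * z + d) ^ (w - (i : ℕ)) := by
      simp [hQ]
    rw [← h1, Polynomial.eval_eq_sum_range' (n := w + 1)
      (lt_of_le_of_lt (Polynomial.natDegree_map_le) (hdeg i)),
      ← Fin.sum_univ_eq_sum_range
        (fun j => ((Q i).map (Int.castRingHom ℂ)).coeff j * z ^ j) (w + 1)]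
    simp
  simp only [polyEval, actVec, actMat]
  calc ∑ j : Fin (w + 1), (∑ i : Fin (w + 1), ((Q i).coeff j : ℂ) * v i) * z ^ (j : ℕ)
      = ∑ i : Fin (w + 1), v i * ∑ j : Fin (w + 1), ((Q i).coeff j : ℂ) * z ^ (j : ℕ) := by
        simp only [Finset.sum_mul, Finset.mul_sum]
        rw [Finset.sum_comm]
        refine Finset.sum_congr rfl fun i _ => Finset.sum_congr rfl fun j _ => ?_
        ring
    _ = _ := by
        refine Finset.sum_congr rfl fun i _ => ?_
        rw [heval i]
        ring

theorem iterate_D_sub (n : ℕ) {F G : ℍ → ℂ} (hF : MDiff F) (hG : MDiff G) :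
    D^[n] (F - G) = D^[n] F - D^[n] G := by
  induction n with
  | zero => rfl
  | succ n ih =>
    rw [Function.iterate_succ_apply', Function.iterate_succ_apply', Function.iterate_succ_apply',
      ih, normalizedDerivOfComplex_sub _ _ (mdiff_iterate_D n hF) (mdiff_iterate_D n hG)]

theorem iterate_D_add (n : ℕ) {F G : ℍ → ℂ} (hF : MDiff F) (hG : MDiff G) :
    D^[n] (F + G) = D^[n] F + D^[n] G := by
  induction n with
  | zero => rfl
  | succ n ih =>
    rw [Function.iterate_succ_apply', Function.iterate_succ_apply', Function.iterate_succ_apply',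
      ih, normalizedDerivOfComplex_add _ _ (mdiff_iterate_D n hF) (mdiff_iterate_D n hG)]

theorem iterate_D_smul (n : ℕ) (a : ℂ) {F : ℍ → ℂ} (hF : MDiff F) :
    D^[n] (a • F) = a • D^[n] F := by
  induction n with
  | zero => rfl
  | succ n ih =>
    rw [Function.iterate_succ_apply', Function.iterate_succ_apply',
      ih, normalizedDerivOfComplex_smul _ _ (mdiff_iterate_D n hF)]

/-- Uniqueness of Eichler integrals. -/
theorem IsEichler.unique {w : ℕ} {g E E' : ℍ → ℂ} (h : IsEichler w g E)
    (h' : IsEichler w g E') : E = E' := by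
  have hsub : D^[w + 1] (E - E') = 0 := by
    rw [iterate_D_sub _ h.mdiff h'.mdiff, h.deriv_eq, h'.deriv_eq, sub_self]
  obtain ⟨c, hc⟩ := exists_polyEval_of_iterate_D_eq_zero w (h.mdiff.sub h'.mdiff) hsub
  have hzero : IsZeroAtImInfty (fun z : ℍ => polyEval c z) := by
    have : (fun z : ℍ => polyEval c z) = E - E' := by
      funext z; exact (hc z).symm
    rw [this]
    have hz : Filter.ZeroAtFilter atImInfty (E + (-1 : ℂ) • E') :=
      Filter.ZeroAtFilter.add h.zero (Filter.ZeroAtFilter.smul (-1 : ℂ) h'.zero)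
    have he : E - E' = E + (-1 : ℂ) • E' := by
      funext z; simp [sub_eq_add_neg]
    rw [he]
    exact hz
  have hc0 := polyEval_eq_zero_of_isZeroAtImInfty hzero
  funext z
  have := hc z
  rw [hc0] at this
  simpa [polyEval, sub_eq_zero] using this

theorem IsEichler.add {w : ℕ} {g g' E E' : ℍ → ℂ} (h : IsEichler w g E)
    (h' : IsEichler w g' E') : IsEichler w (g + g') (E + E') :=
  ⟨h.mdiff.add h'.mdiff, by rw [iterate_D_add _ h.mdiff h'.mdiff, h.deriv_eq, h'.deriv_eq],
    Filter.ZeroAtFilter.add h.zero h'.zero⟩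

theorem IsEichler.smul {w : ℕ} {g E : ℍ → ℂ} (a : ℂ) (h : IsEichler w g E) :
    IsEichler w (a • g) (a • E) :=
  ⟨h.mdiff.const_smul a, by rw [iterate_D_smul _ a h.mdiff, h.deriv_eq],
    Filter.ZeroAtFilter.smul a h.zero⟩

end

end Fermat.Agent.S22
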