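import Mathlib
import Fermat.Agent.S22.Bol
import Fermat.Agent.S22.PolyOfDeriv

/-!
# Eichler integrals: iterated primitives of periodic holomorphic functions vanishing at `i∞`
-/

set_option autoImplicit false

open UpperHalfPlane hiding I
open Real Complex Derivative Polynomial Function Filter
open scoped Manifold MatrixGroups ModularForm Topology

namespace Fermat.Agent.S22

noncomputable section

local notation "𝕢" => Function.Periodic.qParam

/-- The class of functions we integrate: periodic, holomorphic, vanishing at `i∞`. -/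
structure IsCuspidalFun (h : ℝ) (g : ℍ → ℂ) : Prop where
  periodic : Periodic (g ∘ ofComplex) h
  holo : MDiff g
  zero : IsZeroAtImInfty g

theorem hasDerivAt_qParam (h : ℝ) (z : ℂ) :
    HasDerivAt (𝕢 h) (2 * π * I / h * 𝕢 h z) z := by
  unfold Function.Periodic.qParam
  have h1 : HasDerivAt (fun z : ℂ => 2 * π * I * z / h) (2 * π * I / h) z := by
    have := ((hasDerivAt_id z).const_mul (2 * π * I)).div_const (h : ℂ)
    simpa using this
  exact (h1.cexp).congr_deriv (mul_comm _ _)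

/-- One-step primitive. -/
theorem exists_periodic_primitive {g : ℍ → ℂ} {h : ℝ} (hh : 0 < h) (hg : IsCuspidalFun h g) :
    ∃ G : ℍ → ℂ, IsCuspidalFun h G ∧ D G = g := by
  have hhc : (h : ℂ) ≠ 0 := by exact_mod_cast hh.ne'
  set φ := cuspFunction h g with hφ
  have hφdiff : DifferentiableOn ℂ φ (Metric.ball 0 1) :=
    differentiableOn_cuspFunction_ball hh hg.periodic hg.holo hg.zero.isBoundedAtImInfty
  have hφ0 : φ 0 = 0 := hg.zero.cuspFunction_apply_zero hh
  have hball : Metric.ball (0 : ℂ) 1 ∈ 𝓝 (0 : ℂ) := Metric.ball_mem_nhds 0 one_pos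
  have hψdiff : DifferentiableOn ℂ (dslope φ 0) (Metric.ball 0 1) :=
    (differentiableOn_dslope hball).mpr hφdiff
  have hψ : ∀ q : ℂ, q * dslope φ 0 q = φ q := by
    intro q
    have := sub_smul_dslope φ 0 q
    simpa [hφ0] using this
  obtain ⟨Ψ, hΨ0, hΨ⟩ := hψdiff.isExactOn_ball.with_val_at 0 0
  have hq_mem : ∀ z : ℂ, 0 < z.im → 𝕢 h z ∈ Metric.ball (0 : ℂ) 1 := by
    intro z hz
    rw [mem_ball_zero_iff]
    exact Function.Periodic.norm_qParam_lt_one hh hz
  -- the derivative of `w ↦ h * Ψ (𝕢 h w)`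
  have hderiv : ∀ z : ℂ, 0 < z.im →
      HasDerivAt (fun w : ℂ => (h : ℂ) * Ψ (𝕢 h w)) (2 * π * I * φ (𝕢 h z)) z := by
    intro z hz
    have h1 := (hΨ _ (hq_mem z hz)).comp z (hasDerivAt_qParam h z)
    have h2 : HasDerivAt (fun w : ℂ => (h : ℂ) * Ψ (𝕢 h w))
        (↑h * (dslope φ 0 (𝕢 h z) * (2 * ↑π * I / ↑h * 𝕢 h z))) z := h1.const_mul (h : ℂ)
    refine h2.congr_deriv ?_
    rw [← hψ (𝕢 h z)]
    field_simp
  set G : ℍ → ℂ := fun z => (h : ℂ) * Ψ (𝕢 h z) with hG
  have hGcomp : ∀ w : ℂ, 0 < w.im → (G ∘ ofComplex) w = (h : ℂ) * Ψ (𝕢 h w) := by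
    intro w hw
    simp [hG, Function.comp_apply, ofComplex_apply_of_im_pos hw]
  have hGev : ∀ z : ℂ, 0 < z.im →
      (G ∘ ofComplex) =ᶠ[𝓝 z] fun w : ℂ => (h : ℂ) * Ψ (𝕢 h w) := by
    intro z hz
    filter_upwards [isOpen_upperHalfPlaneSet.mem_nhds hz] with w hw
    exact hGcomp w hw
  refine ⟨G, ⟨?_, ?_, ?_⟩, ?_⟩
  · -- periodic
    intro w
    by_cases hw : 0 < im w
    · have hw' : 0 < im (w + h) := by simpa using hw
      rw [hGcomp _ hw', hGcomp _ hw]
      congr 2
      unfold Function.Periodic.qParam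
      rw [show 2 * π * I * (w + h) / h = 2 * π * I * w / h + 2 * π * I by field_simp,
        Complex.exp_add, Complex.exp_two_pi_mul_I, mul_one]
    · have hw1 : im w ≤ 0 := not_lt.mp hw
      have hw' : im (w + h) ≤ 0 := by simpa using hw1
      simp [Function.comp_apply, ofComplex_apply_of_im_nonpos hw', ofComplex_apply_of_im_nonpos hw1]
  · -- holomorphic
    rw [UpperHalfPlane.mdifferentiable_iff]
    intro z hz
    exact ((hderiv z hz).congr_of_eventuallyEq (hGev z hz)).differentiableAt.differentiableWithinAt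
  · -- zero at infinity
    have hcont : ContinuousAt Ψ 0 := (hΨ 0 (Metric.mem_ball_self one_pos)).continuousAt
    have h1 : Tendsto (fun z : ℍ => Ψ (𝕢 h z)) atImInfty (𝓝 (Ψ 0)) :=
      hcont.tendsto.comp (qParam_tendsto_atImInfty hh)
    have h2 : Tendsto (fun z : ℍ => (h : ℂ) * Ψ (𝕢 h z)) atImInfty (𝓝 ((h : ℂ) * Ψ 0)) :=
      h1.const_mul _
    rw [hΨ0, mul_zero] at h2
    exact h2
  · -- derivative
    ext z
    simp only [normalizedDerivOfComplex]
    rw [((hderiv z z.im_pos).congr_of_eventuallyEq (hGev z z.im_pos)).deriv]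
    have : φ (𝕢 h z) = g z := eq_cuspFunction z hh.ne' hg.periodic
    rw [this]
    have h2pi : (2 * (π : ℂ) * I) ≠ 0 := by simp [Real.pi_ne_zero]
    field_simp

/-- Iterated primitive. -/
theorem exists_iterated_primitive (n : ℕ) {g : ℍ → ℂ} {h : ℝ} (hh : 0 < h)
    (hg : IsCuspidalFun h g) :
    ∃ G : ℍ → ℂ, IsCuspidalFun h G ∧ D^[n] G = g := by
  induction n with
  | zero => exact ⟨g, hg, rfl⟩
  | succ n ih =>
    obtain ⟨G₁, hG₁, hD₁⟩ := ih
    obtain ⟨G, hG, hD⟩ := exists_periodic_primitive hh hG₁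
    refine ⟨G, hG, ?_⟩
    rw [Function.iterate_succ_apply, hD, hD₁]

end

end Fermat.Agent.S22
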