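import Fermat.Agent.S22.Basic
import Fermat.Agent.S22.Eichler

/-!
# S22 infrastructure: existence of Eichler integrals

For a holomorphic `h`-periodic function `g : ℍ → ℂ` vanishing at `i∞` there is a holomorphic
`h`-periodic `E` vanishing at `i∞` with `D E = g`; iterate `w+1` times.
(Bridge to `Fermat.Agent.S22.Eichler`.)
-/

set_option autoImplicit false

open UpperHalfPlane ModularForm Derivative CongruenceSubgroup
open scoped MatrixGroups Manifold ModularForm

namespace Fermat.Agent.S22

noncomputable section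

/-- One-step primitive. -/
theorem exists_D_primitive {g : ℍ → ℂ} {h : ℝ} (hh : 0 < h) (hg : MDiff g)
    (hper : Function.Periodic (g ∘ ofComplex) h) (hzero : IsZeroAtImInfty g) :
    ∃ E : ℍ → ℂ, MDiff E ∧ Function.Periodic (E ∘ ofComplex) h ∧ IsZeroAtImInfty E ∧ D E = g := by
  obtain ⟨G, hG, hD⟩ := exists_periodic_primitive hh ⟨hper, hg, hzero⟩
  exact ⟨G, hG.holo, hG.periodic, hG.zero, hD⟩

/-- Existence of periodic Eichler integrals. -/
theorem exists_isEichler (w : ℕ) {g : ℍ → ℂ} {h : ℝ} (hh : 0 < h) (hg : MDiff g)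
    (hper : Function.Periodic (g ∘ ofComplex) h) (hzero : IsZeroAtImInfty g) :
    ∃ E : ℍ → ℂ, IsEichler w g E ∧ Function.Periodic (E ∘ ofComplex) h := by
  obtain ⟨G, hG, hD⟩ := exists_iterated_primitive (w + 1) hh ⟨hper, hg, hzero⟩
  exact ⟨G, ⟨hG.holo, hD, hG.zero⟩, hG.periodic⟩

end

end Fermat.Agent.S22
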