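import Fermat.Agent.S22.Basic
import Fermat.Agent.S22.BolCor
import Fermat.Agent.S22.Poly
import Fermat.Agent.S22.Primitive

/-!
# S22 infrastructure: Eichler integrals of cusp forms on `Γ₀(N)` and their period vectors
-/

set_option autoImplicit false

open UpperHalfPlane ModularForm Derivative CongruenceSubgroup
open scoped MatrixGroups Manifold ModularForm

namespace Fermat.Agent.S22

noncomputable section

variable (N : ℕ) [NeZero N] (w : ℕ)

omit [NeZero N] in
/-- `1` is a strict period of `Γ₀(N)`. -/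
theorem one_mem_strictPeriods_Gamma0 :
    (1 : ℝ) ∈ (Gamma0 N : Subgroup (GL (Fin 2) ℝ)).strictPeriods := by
  simp [CongruenceSubgroup.strictPeriods_Gamma0]

theorem exists_eichler (f : CuspForm (Gamma0 N) ((w : ℤ) + 2)) :
    ∃ E : ℍ → ℂ, IsEichler w f E ∧ Function.Periodic (E ∘ ofComplex) ((1 : ℝ) : ℂ) :=
  exists_isEichler w (g := f) (h := 1) one_pos (CuspFormClass.holo f)
    (SlashInvariantFormClass.periodic_comp_ofComplex f (one_mem_strictPeriods_Gamma0 N))
    (CuspFormClass.zero_at_infty f)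

/-- The Eichler integral of a cusp form of weight `w + 2` on `Γ₀(N)`. -/
def eichler (f : CuspForm (Gamma0 N) ((w : ℤ) + 2)) : ℍ → ℂ :=
  Classical.choose (exists_eichler N w f)

theorem eichler_spec (f : CuspForm (Gamma0 N) ((w : ℤ) + 2)) : IsEichler w f (eichler N w f) :=
  (Classical.choose_spec (exists_eichler N w f)).1

theorem eichler_periodic (f : CuspForm (Gamma0 N) ((w : ℤ) + 2)) :
    Function.Periodic (eichler N w f ∘ ofComplex) ((1 : ℝ) : ℂ) :=
  (Classical.choose_spec (exists_eichler N w f)).2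

theorem eichler_add (f g : CuspForm (Gamma0 N) ((w : ℤ) + 2)) :
    eichler N w (f + g) = eichler N w f + eichler N w g := by
  refine IsEichler.unique (eichler_spec N w (f + g)) ?_
  have := (eichler_spec N w f).add (eichler_spec N w g)
  rwa [← FunLike.coe_add] at this

theorem eichler_smul (a : ℂ) (f : CuspForm (Gamma0 N) ((w : ℤ) + 2)) :
    eichler N w (a • f) = a • eichler N w f := by
  refine IsEichler.unique (eichler_spec N w (a • f)) ?_
  have := (eichler_spec N w f).smul a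
  rwa [← FunLike.coe_smul] at this

omit [NeZero N] in
/-- Slash invariance of a cusp form on `Γ₀(N)` under `γ ∈ Γ₀(N) ⊆ SL₂(ℤ)`. -/
theorem cuspForm_slash_eq (f : CuspForm (Gamma0 N) ((w : ℤ) + 2)) (γ : SL(2, ℤ))
    (hγ : γ ∈ Gamma0 N) : (⇑f) ∣[(w : ℤ) + 2] γ = ⇑f := by
  rw [ModularForm.SL_slash]
  exact SlashInvariantFormClass.slash_action_eq f _ (Subgroup.mem_map_of_mem _ hγ)

/-- The weight `-w` action of `δ ∈ SL₂(ℤ)` on a polynomial function. -/
theorem polyEval_slash (c : Fin (w + 1) → ℂ) (δ : SL(2, ℤ)) (z : ℍ) :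
    ((fun z : ℍ => polyEval c z) ∣[-(w : ℤ)] δ) z
      = polyEval (actVec w (δ 0 0) (δ 0 1) (δ 1 0) (δ 1 1) c) z := by
  rw [ModularForm.SL_slash_apply, polyEval_actVec, neg_neg, zpow_natCast,
    UpperHalfPlane.coe_specialLinearGroup_apply, ModularGroup.denom_apply]
  simp only [algebraMap_int_eq, Int.coe_castRingHom, Complex.ofReal_intCast]
  have hne : ((δ 1 0 : ℤ) : ℂ) * (z : ℂ) + ((δ 1 1 : ℤ) : ℂ) ≠ 0 := by
    have := UpperHalfPlane.denom_ne_zero (δ : GL (Fin 2) ℝ) z
    simpa [UpperHalfPlane.denom] using this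
  rw [polyEval, Finset.sum_mul]
  refine Finset.sum_congr rfl fun i _ => ?_
  have hi : (i : ℕ) ≤ w := Nat.lt_succ_iff.mp i.2
  rw [div_pow, mul_assoc, mul_assoc]
  congr 1
  rw [div_mul_eq_mul_div, div_eq_iff (pow_ne_zero _ hne), mul_assoc, ← pow_add,
    Nat.sub_add_cancel hi]

/-- Existence of the period vector. -/
theorem exists_periodVec (f : CuspForm (Gamma0 N) ((w : ℤ) + 2)) (γ : SL(2, ℤ))
    (hγ : γ ∈ Gamma0 N) :
    ∃ c : Fin (w + 1) → ℂ, ∀ z : ℍ,
      (eichler N w f ∣[-(w : ℤ)] γ) z - eichler N w f z = polyEval c z := by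
  have hE := eichler_spec N w f
  have hEγ : MDiff (eichler N w f ∣[-(w : ℤ)] γ) := by
    rw [ModularForm.SL_slash]; exact hE.mdiff.slash _ _
  have h0 : D^[w + 1] (eichler N w f ∣[-(w : ℤ)] γ - eichler N w f) = 0 := by
    rw [iterate_D_sub _ hEγ hE.mdiff, bol_SL w hE.mdiff γ, hE.deriv_eq,
      cuspForm_slash_eq N w f γ hγ, sub_self]
  obtain ⟨c, hc⟩ := exists_polyEval_of_iterate_D_eq_zero w (hEγ.sub hE.mdiff) h0
  exact ⟨c, fun z => hc z⟩

/-- The period vector of `f` at `γ ∈ Γ₀(N)`: the coefficients of the polynomial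
`E_f ∣[-w] γ - E_f`. -/
def periodVec (f : CuspForm (Gamma0 N) ((w : ℤ) + 2)) (γ : Gamma0 N) : Fin (w + 1) → ℂ :=
  Classical.choose (exists_periodVec N w f γ.1 γ.2)

theorem periodVec_spec (f : CuspForm (Gamma0 N) ((w : ℤ) + 2)) (γ : Gamma0 N) (z : ℍ) :
    (eichler N w f ∣[-(w : ℤ)] (γ : SL(2, ℤ))) z - eichler N w f z
      = polyEval (periodVec N w f γ) z :=
  Classical.choose_spec (exists_periodVec N w f γ.1 γ.2) z

/-- Characterisation of the period vector. -/
theorem periodVec_eq_of (f : CuspForm (Gamma0 N) ((w : ℤ) + 2)) (γ : Gamma0 N)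
    (c : Fin (w + 1) → ℂ)
    (hc : ∀ z : ℍ, (eichler N w f ∣[-(w : ℤ)] (γ : SL(2, ℤ))) z - eichler N w f z = polyEval c z) :
    periodVec N w f γ = c :=
  polyEval_injective fun z => by rw [← periodVec_spec, hc]

theorem polyEval_add (c c' : Fin (w + 1) → ℂ) (z : ℂ) :
    polyEval (c + c') z = polyEval c z + polyEval c' z := by
  simp [polyEval, add_mul, Finset.sum_add_distrib]

theorem polyEval_smul (a : ℂ) (c : Fin (w + 1) → ℂ) (z : ℂ) :
    polyEval (a • c) z = a * polyEval c z := by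
  simp [polyEval, Finset.mul_sum, mul_assoc]

theorem polyEval_zero (z : ℂ) : polyEval (0 : Fin (w + 1) → ℂ) z = 0 := by
  simp [polyEval]

theorem periodVec_add (f g : CuspForm (Gamma0 N) ((w : ℤ) + 2)) (γ : Gamma0 N) :
    periodVec N w (f + g) γ = periodVec N w f γ + periodVec N w g γ := by
  refine periodVec_eq_of N w _ γ _ fun z => ?_
  rw [eichler_add, SlashAction.add_slash, polyEval_add, ← periodVec_spec, ← periodVec_spec]
  simp only [Pi.add_apply]
  ring

theorem periodVec_smul (a : ℂ) (f : CuspForm (Gamma0 N) ((w : ℤ) + 2)) (γ : Gamma0 N) :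
    periodVec N w (a • f) γ = a • periodVec N w f γ := by
  refine periodVec_eq_of N w _ γ _ fun z => ?_
  rw [eichler_smul, ModularForm.SL_smul_slash, polyEval_smul, ← periodVec_spec]
  simp only [Pi.smul_apply, smul_eq_mul]
  ring

/-- The coefficient functionals of the period polynomials. -/
def periodLin (γ : Gamma0 N) (i : Fin (w + 1)) :
    Module.Dual ℂ (CuspForm (Gamma0 N) ((w : ℤ) + 2)) where
  toFun f := periodVec N w f γ i
  map_add' f g := by rw [periodVec_add]; rfl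
  map_smul' a f := by rw [periodVec_smul]; rfl

@[simp] theorem periodLin_apply (γ : Gamma0 N) (i : Fin (w + 1))
    (f : CuspForm (Gamma0 N) ((w : ℤ) + 2)) : periodLin N w γ i f = periodVec N w f γ i := rfl

/-- The cocycle relation. -/
theorem periodVec_mul (f : CuspForm (Gamma0 N) ((w : ℤ) + 2)) (γ δ : Gamma0 N) :
    periodVec N w f (γ * δ) =
      actVec w ((δ : SL(2, ℤ)) 0 0) ((δ : SL(2, ℤ)) 0 1) ((δ : SL(2, ℤ)) 1 0) ((δ : SL(2, ℤ)) 1 1)
        (periodVec N w f γ) + periodVec N w f δ := by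
  refine periodVec_eq_of N w _ _ _ fun z => ?_
  rw [polyEval_add, ← polyEval_slash, ← periodVec_spec]
  have h1 : (fun z : ℍ => polyEval (periodVec N w f γ) z)
      = eichler N w f ∣[-(w : ℤ)] (γ : SL(2, ℤ)) - eichler N w f := by
    funext z
    rw [Pi.sub_apply, periodVec_spec]
  have h2 : ((γ * δ : Gamma0 N) : SL(2, ℤ)) = (γ : SL(2, ℤ)) * (δ : SL(2, ℤ)) := rfl
  have h3 : (eichler N w f ∣[-(w : ℤ)] (γ : SL(2, ℤ)) - eichler N w f) ∣[-(w : ℤ)] (δ : SL(2, ℤ))
      = (eichler N w f ∣[-(w : ℤ)] (γ : SL(2, ℤ))) ∣[-(w : ℤ)] (δ : SL(2, ℤ))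
        - eichler N w f ∣[-(w : ℤ)] (δ : SL(2, ℤ)) := by
    rw [sub_eq_add_neg, SlashAction.add_slash, SlashAction.neg_slash, ← sub_eq_add_neg]
  rw [h1, h2, SlashAction.slash_mul, h3]
  simp only [Pi.sub_apply]
  ring

theorem periodVec_one (f : CuspForm (Gamma0 N) ((w : ℤ) + 2)) :
    periodVec N w f 1 = 0 := by
  refine periodVec_eq_of N w _ _ _ fun z => ?_
  rw [polyEval_zero]
  have : ((1 : Gamma0 N) : SL(2, ℤ)) = 1 := rfl
  rw [this, SlashAction.slash_one, sub_self]

theorem periodVec_inv (f : CuspForm (Gamma0 N) ((w : ℤ) + 2)) (γ : Gamma0 N) :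
    periodVec N w f γ⁻¹ =
      - actVec w (((γ⁻¹ : Gamma0 N) : SL(2, ℤ)) 0 0) (((γ⁻¹ : Gamma0 N) : SL(2, ℤ)) 0 1)
          (((γ⁻¹ : Gamma0 N) : SL(2, ℤ)) 1 0) (((γ⁻¹ : Gamma0 N) : SL(2, ℤ)) 1 1)
          (periodVec N w f γ) := by
  have h := periodVec_mul N w f γ γ⁻¹
  rw [mul_inv_cancel, periodVec_one] at h
  exact eq_neg_of_add_eq_zero_right h.symm

/-- The period lattice: the `ℤ`-span of all coefficient functionals of period polynomials. -/
def periodLattice : Submodule ℤ (Module.Dual ℂ (CuspForm (Gamma0 N) ((w : ℤ) + 2))) :=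
  Submodule.span ℤ (Set.range fun x : Gamma0 N × Fin (w + 1) => periodLin N w x.1 x.2)

theorem periodLin_mem_periodLattice (γ : Gamma0 N) (i : Fin (w + 1)) :
    periodLin N w γ i ∈ periodLattice N w :=
  Submodule.subset_span ⟨(γ, i), rfl⟩

end

end Fermat.Agent.S22
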