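import Mathlib
import Fermat.Prelude.Def_CuspForm_HeckeAlgebra

/-!
# S22 infrastructure: basic definitions

Conventions (used by all `Fermat.Agent.S22.*` files):
* `w : ℕ`, the weight is `k = (w : ℤ) + 2`, the Eichler integral has weight `-(w : ℤ)`.
* `D` is Mathlib's normalized derivative `Derivative.normalizedDerivOfComplex`
  (`D F z = (2πi)⁻¹ * deriv (F ∘ ofComplex) z`), `D^[n]` its iterates.
* polynomials of degree `≤ w` are represented by coefficient vectors `Fin (w+1) → ℂ`.
-/

set_option autoImplicit false

open UpperHalfPlane ModularForm Derivative CongruenceSubgroup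
open scoped MatrixGroups Manifold ModularForm

namespace Fermat.Agent.S22

noncomputable section

/-- Evaluate a coefficient vector as a polynomial function. -/
def polyEval {w : ℕ} (c : Fin (w + 1) → ℂ) (z : ℂ) : ℂ := ∑ i, c i * z ^ (i : ℕ)

/-- Integer matrix of the weight `-w` action of the integer matrix `(a b; c d)` on polynomials of
degree `≤ w`: the `(j,i)` entry is the coefficient of `X^j` in `(aX+b)^i (cX+d)^(w-i)`. -/
def actMat (w : ℕ) (a b c d : ℤ) : Matrix (Fin (w + 1)) (Fin (w + 1)) ℤ :=
  fun j i => ((Polynomial.C a * Polynomial.X + Polynomial.C b) ^ (i : ℕ) *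
    (Polynomial.C c * Polynomial.X + Polynomial.C d) ^ (w - (i : ℕ))).coeff j

/-- The action of an integer matrix on coefficient vectors. -/
def actVec (w : ℕ) (a b c d : ℤ) (v : Fin (w + 1) → ℂ) : Fin (w + 1) → ℂ :=
  fun j => ∑ i, (actMat w a b c d j i : ℂ) * v i

/-- Specification of an Eichler integral `E` of `g` (of weight `w + 2`): a holomorphic
`(w+1)`-fold `D`-primitive of `g` vanishing at `i∞`. -/
structure IsEichler (w : ℕ) (g E : ℍ → ℂ) : Prop where
  mdiff : MDiff E
  deriv_eq : D^[w + 1] E = g
  zero : IsZeroAtImInfty E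

end

end Fermat.Agent.S22
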